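import Fermat.Agent.Switch.Chain.Interface
import Fermat.Agent.Descent3.Main
import Fermat.Agent.BadRed.AtP.ToricLineMain
import Fermat.Agent.JacCharts.Main

/-!
# The descent from levels divisible by nine, unconditionally
-/

set_option autoImplicit false

namespace FermatAgent.Switch.Chain

/-- **`DescentNine` holds.** -/
theorem descentNine : DescentNine :=
  fun W hΔ hW hirr hnofix M hM h9 hcube hres =>
    Descent3.residualInput_three_of_nine_dvd
      (fun N _ h3N k => JacCharts.exists_finiteFlat_model N 3 Nat.prime_three h3N k)
      BadRed.AtP.toricLine_three W hΔ hW hirr hnofix M hM h9 hcube hres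

end FermatAgent.Switch.Chain
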