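import Fermat.Agent.Switch.Chain.Interface
import Fermat.Agent.LT.Curve.Main

/-!
# The Langlands-Tunnell input of the switch chain
-/

set_option autoImplicit false

namespace FermatAgent.Switch.Chain

theorem ltResidual : LTResidual := fun W hΔ hW hgood _ hap h3 =>
  LT.residuallyModular_of_supersingular W hΔ hW h3 hgood hap

end FermatAgent.Switch.Chain
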