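import Fermat.Agent.Switch.Chain.Interface
import Fermat.Agent.Switch.ThreeTorsion
import Fermat.Agent.X015.Semistable

/-!
# The local criteria at 3
-/

set_option autoImplicit false

open WeierstrassCurve WeierstrassCurve.Affine

namespace FermatAgent.Switch.Chain

private lemma cast_ne_of_not_dvd {n : ℕ} {x : ℤ} (h : ¬ (n : ℤ) ∣ x) : (x : ZMod n) ≠ 0 :=
  fun e => h ((ZMod.intCast_zmod_eq_zero_iff_dvd _ _).1 e)

/-- Valuations of the invariants at a supersingular prime 3. -/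
lemma supersingular_invariants {W : WeierstrassCurve ℤ} (h : SupersingularThree W) :
    ∃ u w : ℤ, ¬ (3 : ℤ) ∣ u ∧ W.c₄ = 3 * u ∧ W.c₆ = 27 * w := by
  obtain ⟨hΔ, hc⟩ := h
  have hb₂ : (3 : ℤ) ∣ W.b₂ := Int.prime_three.dvd_of_dvd_pow (n := 2) (by
    have : W.b₂ ^ 2 = W.c₄ + 3 * (8 * W.b₄) := by rw [WeierstrassCurve.c₄]; ring
    rw [this]; exact dvd_add hc (dvd_mul_right _ _))
  obtain ⟨β, hβ⟩ := hb₂
  have hb₄ : ¬ (3 : ℤ) ∣ W.b₄ := by
    intro h4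
    refine hΔ ?_
    have : W.Δ = 3 * (-3 * β ^ 2 * W.b₈ + 9 * β * W.b₄ * W.b₆ - 9 * W.b₆ ^ 2)
        + W.b₄ * (-8 * W.b₄ ^ 2) := by
      rw [WeierstrassCurve.Δ, hβ]; ring
    rw [this]
    exact dvd_add (dvd_mul_right _ _) (h4.mul_right _)
  refine ⟨3 * β ^ 2 - 8 * W.b₄, -β ^ 3 + 4 * β * W.b₄ - 8 * W.b₆, ?_, ?_, ?_⟩
  · omega
  · rw [WeierstrassCurve.c₄, hβ]; ring
  · rw [WeierstrassCurve.c₆, hβ]; ring

lemma irreducible_three_of_supersingular (W : WeierstrassCurve ℤ) (hΔ : W.Δ ≠ 0)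
    (h : SupersingularThree W) : W.ModRepIsIrreducible 3 := by
  by_contra hred
  obtain ⟨y, hy⟩ := exists_int_root_of_reducible W hΔ hred
  obtain ⟨u, w, hu, h4, h6⟩ := supersingular_invariants h
  rw [threeQuartic, h4, h6] at hy
  obtain ⟨z, rfl⟩ : (3 : ℤ) ∣ y := Int.prime_three.dvd_of_dvd_pow (n := 4)
    ⟨6 * u * y ^ 2 + 72 * w * y + 9 * u ^ 2, by linear_combination hy⟩
  exact hu (Int.prime_three.dvd_of_dvd_pow (n := 2)
    ⟨z ^ 4 - 2 * u * z ^ 2 - 8 * w * z, by linarith⟩)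

private lemma count_of_supersingular : ∀ a₁ a₂ a₃ a₄ a₆ : ZMod 3,
    (⟨a₁, a₂, a₃, a₄, a₆⟩ : WeierstrassCurve (ZMod 3)).c₄ = 0 →
    (⟨a₁, a₂, a₃, a₄, a₆⟩ : WeierstrassCurve (ZMod 3)).Δ ≠ 0 →
    (Finset.univ.filter fun xy : ZMod 3 × ZMod 3 =>
      xy.2 ^ 2 + a₁ * xy.1 * xy.2 + a₃ * xy.2 =
        xy.1 ^ 3 + a₂ * xy.1 ^ 2 + a₄ * xy.1 + a₆).card % 3 = 0 := by
  decide +kernel

lemma three_dvd_trace_of_supersingular (W : WeierstrassCurve ℤ) (h : SupersingularThree W) :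
    (3 : ℤ) ∣ W.apOfModel 3 := by
  classical
  have : Fact (Nat.Prime 3) := ⟨Nat.prime_three⟩
  set E := W.reductionMod 3 with hE
  have hΔ : E.Δ ≠ 0 := by
    rw [hE, WeierstrassCurve.reductionMod, WeierstrassCurve.map_Δ, eq_intCast]
    exact cast_ne_of_not_dvd h.1
  have hc : E.c₄ = 0 := by
    rw [hE, WeierstrassCurve.reductionMod, WeierstrassCurve.map_c₄, eq_intCast]
    exact (ZMod.intCast_zmod_eq_zero_iff_dvd _ _).2 h.2
  let e : E.toAffine.Point ≃ Option {xy : ZMod 3 × ZMod 3 // E.toAffine.Equation xy.1 xy.2} :=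
    { toFun := fun P => match P with
        | .zero => none
        | .some x y h => some ⟨(x, y), h.1⟩
      invFun := fun o => match o with
        | none => .zero
        | some ⟨(x, y), h⟩ => .some x y ((equation_iff_nonsingular_of_Δ_ne_zero hΔ).1 h)
      left_inv := fun P => by cases P <;> rfl
      right_inv := fun o => by rcases o with _ | ⟨⟨x, y⟩, h⟩ <;> rfl }
  have hcard := count_of_supersingular E.a₁ E.a₂ E.a₃ E.a₄ E.a₆ hc hΔ
  have hN : E.card = (Finset.univ.filter fun xy : ZMod 3 × ZMod 3 =>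
      xy.2 ^ 2 + E.a₁ * xy.1 * xy.2 + E.a₃ * xy.2 =
        xy.1 ^ 3 + E.a₂ * xy.1 ^ 2 + E.a₄ * xy.1 + E.a₆).card + 1 := by
    rw [WeierstrassCurve.card, Nat.card_congr e, Finite.card_option, Nat.card_eq_fintype_card,
      Fintype.card_subtype]
    simp only [equation_iff]
  rw [WeierstrassCurve.apOfModel, ← hE, WeierstrassCurve.traceOfFrobenius, hN, Nat.card_zmod]
  push_cast
  omega

private lemma five_mod_three : ∀ p q c Δ : ZMod 3, c = 1 → Δ + 1 = 0 → (p ≠ 0 ∨ q ≠ 0) →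
    (p ^ 2 + 10 * p * q + 5 * q ^ 2) ^ 3 * Δ ≠ p * q ^ 5 * c ^ 3 := by
  decide

lemma irreducible_five_of_anomalous (W : WeierstrassCurve ℤ) (hΔ : W.Δ ≠ 0)
    (h : AnomalousTwoThree W) : W.ModRepIsIrreducible 5 := by
  by_contra hred
  have hΔQ : (W.map (Int.castRingHom ℚ)).Δ ≠ 0 := by simpa using hΔ
  obtain ⟨s, hs⟩ := X015.exists_five_param hΔQ hred
  simp only [WeierstrassCurve.map_Δ, WeierstrassCurve.map_c₄, eq_intCast] at hs
  have hd : (s.den : ℚ) ≠ 0 := Nat.cast_ne_zero.2 s.den_nz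
  rw [← Rat.num_div_den s] at hs
  field_simp at hs
  have hZ : (s.num ^ 2 + 10 * s.num * s.den + 5 * (s.den : ℤ) ^ 2) ^ 3 * W.Δ =
      s.num * (s.den : ℤ) ^ 5 * W.c₄ ^ 3 := by
    have : ((s.num : ℚ) ^ 2 + 10 * s.num * s.den + 5 * (s.den : ℚ) ^ 2) ^ 3 * W.Δ =
        s.num * (s.den : ℚ) ^ 5 * (W.c₄ : ℚ) ^ 3 := by
      linear_combination hs
    exact_mod_cast this
  have h3 := congrArg (Int.cast : ℤ → ZMod 3) hZ
  push_cast at h3
  refine five_mod_three _ _ _ _ ?_ ?_ ?_ h3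
  · have hb : (W.c₄ : ZMod 3) = (W.b₂ : ZMod 3) ^ 2 := by
      rw [WeierstrassCurve.c₄]; push_cast; rw [show (24 : ZMod 3) = 0 from rfl]; ring
    have hne : (W.c₄ : ZMod 3) ≠ 0 := cast_ne_of_not_dvd h.1
    rw [hb] at hne ⊢
    exact (by decide : ∀ z : ZMod 3, z ^ 2 ≠ 0 → z ^ 2 = 1) _ hne
  · have := (ZMod.intCast_zmod_eq_zero_iff_dvd (W.Δ + 1) 3).2 h.2
    push_cast at this; exact this
  · by_contra hpq
    push Not at hpq
    rw [ZMod.intCast_zmod_eq_zero_iff_dvd, ZMod.natCast_eq_zero_iff] at hpq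
    have h1 : 3 ∣ s.num.natAbs := Int.natCast_dvd.1 hpq.1
    have h31 := Nat.dvd_gcd h1 hpq.2
    rw [s.reduced.gcd_eq_one] at h31
    norm_num at h31

/-- The three criteria. -/
theorem localCriteria : LocalCriteria :=
  ⟨irreducible_three_of_supersingular, three_dvd_trace_of_supersingular,
    irreducible_five_of_anomalous⟩

end FermatAgent.Switch.Chain
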