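import Fermat.Agent.Switch.Chain.Interface

/-!
# Modularity of semistable curves along the switch chain
-/

set_option autoImplicit false

open WeierstrassCurve

namespace FermatAgent.Switch.Chain

/-- Exact-conductor modularity passes to the residual input of a congruent curve. -/
theorem residualInput_of_congr {p : ℕ} [Fact p.Prime] {W W' : WeierstrassCurve ℤ} (hΔ : W.Δ ≠ 0)
    (hΔ' : W'.Δ ≠ 0) (hirr : W.ModRepIsIrreducible p) (hc : AlmostCongr p W W')
    (h : Mlc1IsModularModelOfExactConductorLevel W') : Wiring.ResidualInput W p := by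
  obtain ⟨N, hN, hsq, hsupp, f, hf, hfp⟩ := h
  obtain ⟨𝔪, hmax, hmem⟩ :=
    FLTPrelim.exists_maximalIdeal_natCast_prime_mem (Fact.out : p.Prime)
  have hnsq : ∀ q : ℕ, q.Prime → ¬ q ^ 2 ∣ N := fun q hq hd =>
    Nat.squarefree_iff_prime_squarefree.mp hsq q hq (sq q ▸ hd)
  refine ⟨N, hN, hnsq p Fact.out,
    fun q hq _ hd => hnsq q hq ((pow_dvd_pow q (by norm_num)).trans hd),
    f, 𝔪, hf, hmax, hmem, fun ℓ hℓ hgood hℓN hℓp => ?_⟩
  have hgood' : W'.IsGoodPrimeFor ℓ := fun hd => hℓN ((hsupp ℓ hℓ).mpr hd)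
  obtain ⟨m, hm⟩ := congr_of_almostCongr hΔ hΔ' hirr hc hℓ hgood hgood' hℓp
  refine ⟨(W'.apOfModel ℓ : integralClosure ℤ ℂ), ?_, ?_⟩
  · rw [hfp ℓ hℓ hgood' hℓN, SubringClass.coe_intCast]
  · rw [← Int.cast_sub, hm, Int.cast_mul]
    exact Ideal.mul_mem_right _ _ (by simpa using hmem)

theorem lift_of_residualInput (hLift : Lifting) (p : ℕ) (hp : p = 3 ∨ p = 5)
    (W : WeierstrassCurve ℤ) (hΔ : W.Δ ≠ 0) (hW : W.IsSemistableModel)
    (hirr : W.ModRepIsIrreducible p) (h : Wiring.ResidualInput W p) :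
    Mlc1IsModularModelOfExactConductorLevel W := by
  obtain ⟨M, hM, hp2, hcube, hres⟩ := h
  have : NeZero M := ⟨hM.ne'⟩
  exact hLift p hp W hΔ hW hirr M hres hp2 hcube

section Chain

variable (hLT : LTResidual) (hD : DescentNine) (hLift : Lifting) (hS : Switches)
  (hL : LocalCriteria)
include hLT hD hLift hS hL

theorem exactConductor_of_flat (W : WeierstrassCurve ℤ) (hΔ : W.Δ ≠ 0) (hW : W.IsSemistableModel)
    (h3 : W.ModRepIsIrreducible 3) (hflat : FlatThree W) :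
    Mlc1IsModularModelOfExactConductorLevel W := by
  have : Fact (Nat.Prime 3) := ⟨Nat.prime_three⟩
  have : Fact (Nat.Prime 5) := ⟨Nat.prime_five⟩
  have base : ∀ E : WeierstrassCurve ℤ, E.Δ ≠ 0 → E.IsSemistableModel → SupersingularThree E →
      Mlc1IsModularModelOfExactConductorLevel E := fun E hE hEs hss =>
    have hi := hL.irreducible_three E hE hss
    lift_of_residualInput hLift 3 (Or.inl rfl) E hE hEs hi (by
      obtain ⟨M, hM, hres, hcube, hfix⟩ := hLT E hE hEs hss.1 hss.2 (hL.three_dvd_trace E hss) hi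
      by_cases h9 : 3 ^ 2 ∣ M
      · exact hD E hE hEs hi (hfix h9) M hM h9 hcube hres
      · exact ⟨M, hM, h9, hcube, hres⟩)
  by_cases hss : SupersingularThree W
  · exact base W hΔ hW hss
  obtain ⟨E₂, hΔ₂, hW₂, hA, hc₂⟩ := hS.anomalous W hΔ hW hflat hss
  obtain ⟨E₃, hΔ₃, hW₃, hss₃, hc₃⟩ := hS.supersingular E₂ hΔ₂ hW₂ hA
  have h5 := hL.irreducible_five E₂ hΔ₂ hA
  have hmod₂ := lift_of_residualInput hLift 5 (Or.inr rfl) E₂ hΔ₂ hW₂ h5
    (residualInput_of_congr hΔ₂ hΔ₃ h5 hc₃ (base E₃ hΔ₃ hW₃ hss₃))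
  exact lift_of_residualInput hLift 3 (Or.inl rfl) W hΔ hW h3
    (residualInput_of_congr hΔ hΔ₂ h3 hc₂ hmod₂)

theorem exactConductor_of_irreducibleFive (W : WeierstrassCurve ℤ) (hΔ : W.Δ ≠ 0)
    (hW : W.IsSemistableModel) (h5 : W.ModRepIsIrreducible 5) :
    Mlc1IsModularModelOfExactConductorLevel W := by
  have : Fact (Nat.Prime 5) := ⟨Nat.prime_five⟩
  obtain ⟨E₁, hΔ₁, hW₁, h₁, hflat, hc⟩ := hS.flat W hΔ hW
  exact lift_of_residualInput hLift 5 (Or.inr rfl) W hΔ hW h5 (residualInput_of_congr hΔ hΔ₁ h5 hc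
    (exactConductor_of_flat hLT hD hLift hS hL E₁ hΔ₁ hW₁ h₁ hflat))

/-- Every semistable curve is modular of exact conductor level. -/
theorem exactConductor
    (hS51 : ∀ W : WeierstrassCurve ℤ, W.Δ ≠ 0 → W.IsSemistableModel →
      W.ModRepIsIrreducible 3 ∨ W.ModRepIsIrreducible 5)
    (W : WeierstrassCurve ℤ) (hΔ : W.Δ ≠ 0) (hW : W.IsSemistableModel) :
    Mlc1IsModularModelOfExactConductorLevel W := by
  have : Fact (Nat.Prime 3) := ⟨Nat.prime_three⟩
  rcases hS51 W hΔ hW with h3 | h5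
  · by_cases hflat : FlatThree W
    · exact exactConductor_of_flat hLT hD hLift hS hL W hΔ hW h3 hflat
    obtain ⟨W', hΔ', hW', h5', hc⟩ := hS.irreducibleFive W hΔ hW
    exact lift_of_residualInput hLift 3 (Or.inl rfl) W hΔ hW h3
      (residualInput_of_congr hΔ hΔ' h3 hc
        (exactConductor_of_irreducibleFive hLT hD hLift hS hL W' hΔ' hW' h5'))
  · exact exactConductor_of_irreducibleFive hLT hD hLift hS hL W hΔ hW h5

omit hLT hD hLift hS hL in
/-- The shape of S50 from exact-conductor modularity. -/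
theorem residualOutputThree_of_exactConductor (W : WeierstrassCurve ℤ) (hΔ : W.Δ ≠ 0)
    (h3 : W.ModRepIsIrreducible 3) (h : Mlc1IsModularModelOfExactConductorLevel W) :
    Wiring.ResidualOutputThree W := by
  have : Fact (Nat.Prime 3) := ⟨Nat.prime_three⟩
  obtain ⟨M, hM, hp2, hcube, hres⟩ :=
    residualInput_of_congr hΔ hΔ h3 (AlmostCongr.refl 3 W) h
  exact ⟨M, hM, hres, hcube, fun h9 => absurd h9 hp2⟩

/-- S50. -/
theorem residualModularityThree
    (hS51 : ∀ W : WeierstrassCurve ℤ, W.Δ ≠ 0 → W.IsSemistableModel →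
      W.ModRepIsIrreducible 3 ∨ W.ModRepIsIrreducible 5)
    (W : WeierstrassCurve ℤ) (hΔ : W.Δ ≠ 0) (hW : W.IsSemistableModel)
    (h3 : W.ModRepIsIrreducible 3) : Wiring.ResidualOutputThree W :=
  residualOutputThree_of_exactConductor W hΔ h3 (exactConductor hLT hD hLift hS hL hS51 W hΔ hW)

end Chain

end FermatAgent.Switch.Chain
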