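import Mathlib.Algebra.BigOperators.Intervals
import Fermat.Agent.Switch.Hesse.Forms

/-!
# Fifth-power free values of the quartic along the Hesse line
-/

set_option autoImplicit false

namespace FermatAgent.Switch.Chain

open Hesse Polynomial

/-- The quartic has only simple roots. -/
lemma covQuartic_simple {F : Type*} [Field F] (h6 : (6 : F) ≠ 0) {a b l m : F}
    (hab : a ^ 3 - b ^ 2 ≠ 0) (hm : m ≠ 0) (h : covQuartic a b l m = 0)
    (hd : l ^ 3 - 3 * a * l * m ^ 2 - 2 * b * m ^ 3 = 0) : False := by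
  have h2 : (2 : F) ≠ 0 := fun e => h6 (by linear_combination (3 : F) * e)
  have h3 : (3 : F) ≠ 0 := fun e => h6 (by linear_combination (2 : F) * e)
  simp only [covQuartic] at h
  have e₁ : a * l ^ 2 + 2 * b * l * m + a ^ 2 * m ^ 2 = 0 := by
    refine (mul_eq_zero.1 ?_).resolve_left (mul_ne_zero (neg_ne_zero.2 h3) (pow_ne_zero 2 hm))
    linear_combination h - l * hd
  have e₂ : b * l ^ 2 + 2 * a ^ 2 * l * m + a * b * m ^ 2 = 0 := by
    refine (mul_eq_zero.1 ?_).resolve_left (mul_ne_zero (neg_ne_zero.2 h2) hm)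
    linear_combination a * hd - l * e₁
  have e₃ : l = 0 := by
    refine (mul_eq_zero.1 ?_).resolve_left
      (mul_ne_zero (mul_ne_zero h2 hab) hm)
    linear_combination a * e₂ - b * e₁
  subst e₃
  have ha : a = 0 := eq_zero_of_pow_eq_zero (n := 2)
    ((mul_eq_zero.1 (by linear_combination e₁ : a ^ 2 * m ^ 2 = 0)).resolve_right (pow_ne_zero 2 hm))
  have hb : b = 0 := (mul_eq_zero.1 (by linear_combination (-1 : F) * hd :
      b * (2 * m ^ 3) = 0)).resolve_right (mul_ne_zero h2 (pow_ne_zero 3 hm))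
  exact hab (by rw [ha, hb]; ring)

/-- Two roots modulo `ℓ ^ k` which agree modulo `ℓ` agree. -/
lemma dvd_sub_of_roots {a b m : ℤ} {ℓ : ℕ} (hℓ : ℓ.Prime) (h6 : ¬ (ℓ : ℤ) ∣ 6)
    (hab : ¬ (ℓ : ℤ) ∣ a ^ 3 - b ^ 2) (hm : ¬ (ℓ : ℤ) ∣ m) {x y : ℤ} {k : ℕ} (hk : k ≠ 0)
    (hx : (ℓ : ℤ) ^ k ∣ covQuartic a b (m * x + 1) m)
    (hy : (ℓ : ℤ) ^ k ∣ covQuartic a b (m * y + 1) m) (hxy : (ℓ : ℤ) ∣ x - y) :
    (ℓ : ℤ) ^ k ∣ x - y := by
  have := Fact.mk hℓ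
  set L := m * x + 1 with hL
  set L' := m * y + 1 with hL'
  set G : ℤ := (L + L') * (L ^ 2 + L' ^ 2) - 6 * a * m ^ 2 * (L + L') - 8 * b * m ^ 3
  have h : (ℓ : ℤ) ^ k ∣ G * (m * (x - y)) := by
    have e : covQuartic a b L m - covQuartic a b L' m = G * (m * (x - y)) := by
      simp only [covQuartic, G, hL, hL']; ring
    exact e ▸ dvd_sub hx hy
  have hG : ¬ (ℓ : ℤ) ∣ G := by
    intro hG
    have hx1 := (dvd_pow_self _ hk).trans hx
    rw [← ZMod.intCast_zmod_eq_zero_iff_dvd] at hG hx1 hxy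
    rw [← eq_intCast (Int.castRingHom (ZMod ℓ)), map_covQuartic] at hx1
    have h6' : (6 : ZMod ℓ) ≠ 0 := fun e =>
      h6 ((ZMod.intCast_zmod_eq_zero_iff_dvd 6 ℓ).1 (by exact_mod_cast e))
    refine covQuartic_simple h6' (fun e => hab ?_)
      (fun e => hm ((ZMod.intCast_zmod_eq_zero_iff_dvd _ _).1 e)) hx1 ?_
    · rw [← ZMod.intCast_zmod_eq_zero_iff_dvd]
      simpa using e
    · simp only [G, hL, hL', eq_intCast] at hG ⊢
      push_cast at hG hxy ⊢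
      rw [sub_eq_zero] at hxy
      rw [← hxy] at hG
      have h4 : (4 : ZMod ℓ) ≠ 0 := fun e => h6' (by
        have h2 : (2 : ZMod ℓ) = 0 := eq_zero_of_pow_eq_zero (n := 2) (by linear_combination e)
        linear_combination (3 : ZMod ℓ) * h2)
      refine (mul_eq_zero.1 ?_).resolve_left h4
      linear_combination hG
  have hp : Prime (ℓ : ℤ) := Nat.prime_iff_prime_int.1 hℓ
  exact ((hp.coprime_iff_not_dvd.2 hm).pow_left).dvd_of_dvd_mul_left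
    (((hp.coprime_iff_not_dvd.2 hG).pow_left).dvd_of_dvd_mul_left h)

/-- The roots modulo `ℓ`. -/
lemma exists_roots {a b m : ℤ} {ℓ : ℕ} (hℓ : ℓ.Prime) (hm : ¬ (ℓ : ℤ) ∣ m) :
    ∃ R : Finset (ZMod ℓ), R.card ≤ 4 ∧
      ∀ x : ℤ, (ℓ : ℤ) ∣ covQuartic a b (m * x + 1) m → (x : ZMod ℓ) ∈ R := by
  have := Fact.mk hℓ
  set L : Polynomial (ZMod ℓ) := C (m : ZMod ℓ) * X + 1 with hL
  set P : Polynomial (ZMod ℓ) := covQuartic (C (a : ZMod ℓ)) (C (b : ZMod ℓ)) L (C (m : ZMod ℓ))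
  have hm' : (m : ZMod ℓ) ≠ 0 := fun e => hm ((ZMod.intCast_zmod_eq_zero_iff_dvd _ _).1 e)
  have hdeg : P.natDegree = 4 := by
    simp only [P, covQuartic, hL]
    compute_degree!
  have hP : P ≠ 0 := fun e => by simp [e] at hdeg
  refine ⟨P.roots.toFinset, (Multiset.toFinset_card_le _).trans ((card_roots' P).trans hdeg.le),
    fun x hx => ?_⟩
  rw [Multiset.mem_toFinset, mem_roots hP, IsRoot.def, ← coe_evalRingHom, map_covQuartic]
  simp only [hL, coe_evalRingHom, eval_C, eval_add, eval_mul, eval_X, eval_one]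
  rw [← ZMod.intCast_zmod_eq_zero_iff_dvd, ← eq_intCast (Int.castRingHom (ZMod ℓ)),
    map_covQuartic] at hx
  simpa using hx

lemma card_bad_le {a b m : ℤ} {ℓ : ℕ} (hℓ : ℓ.Prime) (h6 : ¬ (ℓ : ℤ) ∣ 6)
    (hab : ¬ (ℓ : ℤ) ∣ a ^ 3 - b ^ 2) (hm : ¬ (ℓ : ℤ) ∣ m) (N : ℕ) :
    ((Finset.Ico N (2 * N)).filter fun n : ℕ =>
      (ℓ : ℤ) ^ 5 ∣ covQuartic a b (m * n + 1) m).card ≤ 4 * (N / ℓ ^ 5 + 2) := by
  obtain ⟨R, hR, hmem⟩ := exists_roots (a := a) (b := b) hℓ hm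
  have hpos : 0 < ℓ ^ 5 := pow_pos hℓ.pos 5
  calc _ ≤ (R ×ˢ Finset.Icc (N / ℓ ^ 5) (N / ℓ ^ 5 * 2 + 1)).card := by
        refine Finset.card_le_card_of_injOn (fun n : ℕ => ((n : ZMod ℓ), n / ℓ ^ 5)) ?_ ?_
        · intro n hn
          simp only [Finset.coe_filter, Finset.mem_Ico, Set.mem_ofPred_eq] at hn
          simp only [Finset.coe_product, Set.mem_prod, Finset.mem_coe, Finset.mem_Icc]
          refine ⟨by simpa using hmem n ((dvd_pow_self _ (by norm_num)).trans hn.2),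
            Nat.div_le_div_right hn.1.1, ?_⟩
          rw [Nat.le_iff_lt_add_one, Nat.div_lt_iff_lt_mul hpos]
          have h1 := Nat.lt_div_mul_add hpos (a := N)
          nlinarith [hn.1.2]
        · intro x hx y hy hxy
          simp only [Finset.coe_filter, Set.mem_ofPred_eq] at hx hy
          simp only [Prod.mk.injEq] at hxy
          have hd : (ℓ : ℤ) ∣ (x : ℤ) - y := by
            rw [← ZMod.intCast_zmod_eq_zero_iff_dvd]
            simp [hxy.1]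
          have h5 := dvd_sub_of_roots hℓ h6 hab hm (by norm_num) hx.2 hy.2 hd
          have hmod : x % ℓ ^ 5 = y % ℓ ^ 5 := by
            refine (Nat.modEq_iff_dvd.2 ?_).symm
            push_cast
            exact h5
          rw [← Nat.div_add_mod x (ℓ ^ 5), ← Nat.div_add_mod y (ℓ ^ 5), hxy.2, hmod]
    _ ≤ 4 * (N / ℓ ^ 5 + 2) := by
        rw [Finset.card_product, Nat.card_Icc]
        exact Nat.mul_le_mul hR (by omega)

private lemma term_le (N i : ℕ) : ((4 * (N / (7 + i) ^ 5 + 2) : ℕ) : ℚ) ≤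
    4 * (N : ℚ) / 343 * (1 / ((i : ℚ) + 6) - 1 / ((i + 1 : ℕ) + 6)) + 8 := by
  have h1 : ((N / (7 + i) ^ 5 : ℕ) : ℚ) ≤ (N : ℚ) / ((7 + i) ^ 5 : ℕ) := Nat.cast_div_le
  push_cast at h1 ⊢
  have hi : (0 : ℚ) ≤ i := Nat.cast_nonneg i
  have h2 : (N : ℚ) / (7 + (i : ℚ)) ^ 5 ≤
      (N : ℚ) / 343 * (1 / ((i : ℚ) + 6) - 1 / ((i : ℚ) + 1 + 6)) := by
    have e : (N : ℚ) / 343 * (1 / ((i : ℚ) + 6) - 1 / ((i : ℚ) + 1 + 6)) =
        N / (343 * ((i + 6) * (i + 7))) := by field_simp; ring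
    rw [e]
    refine div_le_div_of_nonneg_left (Nat.cast_nonneg N) (by positivity) ?_
    have a1 : (343 : ℚ) ≤ (7 + (i : ℚ)) ^ 3 :=
      le_trans (by norm_num) (pow_le_pow_left₀ (by norm_num : (0 : ℚ) ≤ 7)
        (le_add_of_nonneg_right hi) 3)
    have a2 : ((i : ℚ) + 6) * ((i : ℚ) + 7) ≤ (7 + (i : ℚ)) * (7 + (i : ℚ)) := by nlinarith
    have a3 : (0 : ℚ) ≤ ((i : ℚ) + 6) * ((i : ℚ) + 7) := by positivity
    have a4 : (7 + (i : ℚ)) ^ 5 = (7 + (i : ℚ)) ^ 3 * ((7 + (i : ℚ)) * (7 + (i : ℚ))) := by ring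
    rw [a4]
    exact mul_le_mul a1 a2 a3 (by positivity)
  linarith

private lemma sum_lt {N L : ℕ} (hN : 0 < N) (hL : 32 * L ≤ 3 * N)
    (h : N ≤ ∑ i ∈ Finset.range L, 4 * (N / (7 + i) ^ 5 + 2)) : False := by
  have hQ : (N : ℚ) ≤ ∑ i ∈ Finset.range L,
      (4 * (N : ℚ) / 343 * (1 / ((i : ℚ) + 6) - 1 / ((i + 1 : ℕ) + 6)) + 8) := by
    refine le_trans ?_ (Finset.sum_le_sum fun i _ => term_le N i)
    exact_mod_cast h
  rw [Finset.sum_add_distrib, ← Finset.mul_sum,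
    Finset.sum_range_sub' (fun i : ℕ => 1 / ((i : ℚ) + 6)), Finset.sum_const, Finset.card_range,
    nsmul_eq_mul] at hQ
  have hN' : (0 : ℚ) < N := by exact_mod_cast hN
  have hL' : 32 * (L : ℚ) ≤ 3 * N := by exact_mod_cast hL
  have hnn : (0 : ℚ) ≤ 1 / ((L : ℚ) + 6) := by positivity
  push_cast at hQ
  generalize 1 / ((L : ℚ) + 6) = z at hQ hnn
  have := mul_nonneg hN'.le hnn
  linarith

private lemma bound_le {A y N : ℕ} (hy : 1 ≤ y) (h : (256 * A + 256) * y ≤ N) :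
    32 * (16 * (A + 1) * y + 1) ≤ 3 * N := by
  have e1 : (256 * A + 256) * y = 256 * (A * y) + 256 * y := by ring
  have e2 : 16 * (A + 1) * y = 16 * (A * y) + 16 * y := by ring
  omega

/-- There are arguments at which the quartic is fifth-power free away from `m`. -/
theorem exists_fifthFree (a b : ℤ) (m : ℕ) (h30 : 30 ∣ m)
    (hab : ∀ ℓ : ℕ, ℓ.Prime → (ℓ : ℤ) ∣ a ^ 3 - b ^ 2 → ℓ ∣ m) (A n₀ : ℕ)
    (hA : ∀ n : ℕ, n₀ ≤ n → covQuartic a b ((m : ℤ) * n + 1) m ≠ 0 ∧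
      (covQuartic a b ((m : ℤ) * n + 1) m).natAbs ≤ A * n ^ 4) :
    ∃ n : ℕ, n₀ ≤ n ∧ ∀ ℓ : ℕ, ℓ.Prime → ¬ ℓ ∣ m →
      ¬ (ℓ : ℤ) ^ 5 ∣ covQuartic a b ((m : ℤ) * n + 1) m := by
  classical
  obtain ⟨k, hk⟩ : ∃ k : ℕ, k = 256 * A + n₀ + 256 := ⟨_, rfl⟩
  obtain ⟨N, hN⟩ : ∃ N : ℕ, N = k ^ 5 := ⟨_, rfl⟩
  obtain ⟨L, hL₀⟩ : ∃ L : ℕ, L = 16 * (A + 1) * k ^ 4 + 1 := ⟨_, rfl⟩
  have hkN : n₀ ≤ N := hN ▸ le_trans (by omega) (Nat.le_self_pow (by norm_num) k)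
  set P := (Finset.Ico 7 (L + 7)).filter fun ℓ => ℓ.Prime ∧ ¬ ℓ ∣ m
  set Bad : ℕ → Finset ℕ := fun ℓ => (Finset.Ico N (2 * N)).filter fun n : ℕ =>
    (ℓ : ℤ) ^ 5 ∣ covQuartic a b ((m : ℤ) * n + 1) m
  by_contra hne
  push Not at hne
  have hsub : Finset.Ico N (2 * N) ⊆ P.biUnion Bad := by
    intro n hn
    have hn' := Finset.mem_Ico.1 hn
    obtain ⟨ℓ, hℓ, hℓm, hd⟩ := hne n (hkN.trans hn'.1)
    obtain ⟨h0, hle⟩ := hA n (hkN.trans hn'.1)
    have h7 : 7 ≤ ℓ := by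
      by_contra h
      have h2 := hℓ.two_le
      have hdvd : ℓ ∣ 30 := by
        interval_cases ℓ <;> revert hℓ <;> decide
      exact hℓm (hdvd.trans h30)
    have hℓL : ℓ < L + 7 := by
      have h1 : ℓ ^ 5 ≤ A * n ^ 4 := by
        refine le_trans (Nat.le_of_dvd (Int.natAbs_pos.2 h0) ?_) hle
        rw [← Int.natCast_dvd]
        exact_mod_cast hd
      have h2 : A * n ^ 4 ≤ (16 * (A + 1) * k ^ 4) ^ 5 := by
        calc A * n ^ 4 ≤ A * (2 * N) ^ 4 :=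
              Nat.mul_le_mul_left _ (Nat.pow_le_pow_left hn'.2.le 4)
          _ = (16 * A) * (k ^ 4) ^ 5 := by rw [hN]; ring
          _ ≤ (16 * (A + 1)) ^ 5 * (k ^ 4) ^ 5 :=
              Nat.mul_le_mul_right _ (le_trans (by omega) (Nat.le_self_pow (by norm_num) _))
          _ = _ := by rw [← mul_pow]
      have := (Nat.pow_le_pow_iff_left (by norm_num : 5 ≠ 0)).1 (h1.trans h2)
      omega
    exact Finset.mem_biUnion.2 ⟨ℓ, Finset.mem_filter.2 ⟨Finset.mem_Ico.2 ⟨h7, hℓL⟩, hℓ, hℓm⟩,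
      Finset.mem_filter.2 ⟨hn, hd⟩⟩
  have h := (Finset.card_le_card hsub).trans Finset.card_biUnion_le
  rw [Nat.card_Ico] at h
  have hb : ∀ ℓ ∈ P, (Bad ℓ).card ≤ 4 * (N / ℓ ^ 5 + 2) := by
    intro ℓ hℓ
    obtain ⟨-, hp, hnd⟩ := Finset.mem_filter.1 hℓ
    have hnd' : ¬ (ℓ : ℤ) ∣ m := by exact_mod_cast hnd
    refine card_bad_le hp (fun h6 => hnd' (h6.trans ?_)) (fun h => hnd (hab ℓ hp h)) hnd' N
    exact_mod_cast (show 6 ∣ 30 by norm_num).trans h30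
  have h' : N ≤ ∑ ℓ ∈ Finset.Ico 7 (L + 7), 4 * (N / ℓ ^ 5 + 2) := by
    have h1 := h.trans (Finset.sum_le_sum hb)
    have h2 := h1.trans (Finset.sum_le_sum_of_subset (Finset.filter_subset _ _))
    omega
  rw [Finset.sum_Ico_eq_sum_range, Nat.add_sub_cancel] at h'
  have hL : 32 * L ≤ 3 * N := by
    rw [hL₀]
    refine bound_le (y := k ^ 4) (Nat.one_le_pow _ _ (by omega)) ?_ (A := A)
    calc (256 * A + 256) * k ^ 4 ≤ k * k ^ 4 := Nat.mul_le_mul_right _ (by omega)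
      _ = N := by rw [hN, pow_succ' k 4]
  exact sum_lt (hN ▸ pow_pos (by omega) 5) hL h'

end FermatAgent.Switch.Chain
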