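import Fermat.Agent.Switch.Chain.Congr
import Fermat.Agent.Wiring.Modularity

/-!
# The switch chain: interfaces

`W -5-> E₁` (`ρ̄₃` irreducible, flat at 3) `-3-> E₂` (good at 3, `a₃ = ±2`) `-5-> E₃` (good
supersingular at 3); and `W -3-> E'` (`ρ̄₅` irreducible) when `W[3]` is not flat at 3.
-/

set_option autoImplicit false

open WeierstrassCurve WeierstrassCurve.Affine WeierstrassCurve.Affine.Point
open scoped WeierstrassCurve.Affine

namespace FermatAgent.Switch.Chain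

/-- Good supersingular reduction at 3. -/
def SupersingularThree (W : WeierstrassCurve ℤ) : Prop :=
  ¬ (3 : ℤ) ∣ W.Δ ∧ (3 : ℤ) ∣ W.c₄

/-- Good reduction at 3 with `a₃ = ±2`. -/
def AnomalousTwoThree (W : WeierstrassCurve ℤ) : Prop :=
  ¬ (3 : ℤ) ∣ W.c₄ ∧ (3 : ℤ) ∣ W.Δ + 1

/-- `W[3]` is flat at 3 (for semistable `W`): `3 ∣ v₃(Δ)`. -/
def FlatThree (W : WeierstrassCurve ℤ) : Prop :=
  3 ∣ padicValInt 3 W.Δ

/-- What Langlands-Tunnell supplies: residual modularity at 3 in the supersingular case. -/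
def LTResidual : Prop :=
  ∀ W : WeierstrassCurve ℤ, W.Δ ≠ 0 → W.IsSemistableModel → W.IsGoodPrimeFor 3 →
    (3 : ℤ) ∣ W.c₄ → (3 : ℤ) ∣ W.apOfModel 3 → W.ModRepIsIrreducible 3 → Wiring.ResidualOutputThree W

/-- The descent from a level divisible by 9 (as in `Wiring.residualInputThree_of_output`). -/
def DescentNine : Prop :=
  ∀ W : WeierstrassCurve ℤ, W.Δ ≠ 0 → W.IsSemistableModel → W.ModRepIsIrreducible 3 →
    (∀ A : ValuationSubring (AlgebraicClosure ℚ), A.LiesOverPrime 3 →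
      ∀ x : Submodule.torsionBy ℤ
          ((W.map (Int.castRingHom ℚ))⁄(AlgebraicClosure ℚ)).Point (3 : ℕ),
        (∀ σ ∈ A.inertiaSubgroupIn ℚ, σ • x = x) → x = 0) →
    ∀ M : ℕ, 0 < M → 3 ^ 2 ∣ M → (∀ q : ℕ, q.Prime → q ≠ 3 → ¬ q ^ 3 ∣ M) →
      W.IsResiduallyModularOfLevel 3 M → Wiring.ResidualInput W 3

/-- Modularity lifting at 3 and 5 (S59). -/
def Lifting : Prop :=
  ∀ (p : ℕ), p = 3 ∨ p = 5 → ∀ W : WeierstrassCurve ℤ, W.Δ ≠ 0 → W.IsSemistableModel →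
    W.ModRepIsIrreducible p → ∀ (M₀ : ℕ) [NeZero M₀], W.IsResiduallyModularOfLevel p M₀ →
    ¬ p ^ 2 ∣ M₀ → (∀ q : ℕ, q.Prime → q ≠ p → ¬ q ^ 3 ∣ M₀) →
    Mlc1IsModularModelOfExactConductorLevel W

/-- `W -5-> E₁`. -/
def SwitchFlat : Prop :=
  ∀ W : WeierstrassCurve ℤ, W.Δ ≠ 0 → W.IsSemistableModel →
    ∃ W' : WeierstrassCurve ℤ, W'.Δ ≠ 0 ∧ W'.IsSemistableModel ∧ W'.ModRepIsIrreducible 3 ∧
      FlatThree W' ∧ AlmostCongr 5 W W'

/-- `E₁ -3-> E₂`. -/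
def SwitchAnomalous : Prop :=
  ∀ W : WeierstrassCurve ℤ, W.Δ ≠ 0 → W.IsSemistableModel → FlatThree W →
    ¬ SupersingularThree W →
    ∃ W' : WeierstrassCurve ℤ, W'.Δ ≠ 0 ∧ W'.IsSemistableModel ∧ AnomalousTwoThree W' ∧
      AlmostCongr 3 W W'

/-- `E₂ -5-> E₃`. -/
def SwitchSupersingular : Prop :=
  ∀ W : WeierstrassCurve ℤ, W.Δ ≠ 0 → W.IsSemistableModel → AnomalousTwoThree W →
    ∃ W' : WeierstrassCurve ℤ, W'.Δ ≠ 0 ∧ W'.IsSemistableModel ∧ SupersingularThree W' ∧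
      AlmostCongr 5 W W'

/-- `W -3-> E'`. -/
def SwitchIrreducibleFive : Prop :=
  ∀ W : WeierstrassCurve ℤ, W.Δ ≠ 0 → W.IsSemistableModel →
    ∃ W' : WeierstrassCurve ℤ, W'.Δ ≠ 0 ∧ W'.IsSemistableModel ∧ W'.ModRepIsIrreducible 5 ∧
      AlmostCongr 3 W W'

/-- All switch curves together. -/
structure Switches : Prop where
  flat : SwitchFlat
  anomalous : SwitchAnomalous
  supersingular : SwitchSupersingular
  irreducibleFive : SwitchIrreducibleFive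

/-- The local criteria at 3. -/
structure LocalCriteria : Prop where
  irreducible_three : ∀ W : WeierstrassCurve ℤ, W.Δ ≠ 0 → SupersingularThree W →
    W.ModRepIsIrreducible 3
  three_dvd_trace : ∀ W : WeierstrassCurve ℤ, SupersingularThree W → (3 : ℤ) ∣ W.apOfModel 3
  irreducible_five : ∀ W : WeierstrassCurve ℤ, W.Δ ≠ 0 → AnomalousTwoThree W →
    W.ModRepIsIrreducible 5

end FermatAgent.Switch.Chain
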