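import Fermat.Agent.Switch.Chain.Modulus
import Fermat.Agent.Switch.Chain.Interface
import Fermat.Agent.Switch.Hesse.Congruence

/-!
# The switch along the Hesse family to good reduction with `a₃ = ±2`
-/

set_option autoImplicit false

open WeierstrassCurve

namespace FermatAgent.Switch.Chain

open Hesse

lemma covFour_local {R : Type*} [CommRing R] (c β t s M : R) :
    covFour (c ^ 2) (c ^ 3 * (-1 - 864 * (t ^ 3 * β))) (c * (1 + t * s) * M) M =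
      t ^ 4 * (c ^ 6 * M ^ 4 * (s ^ 4 + 27 * (-128 * β * s ^ 3 * t ^ 2 - 384 * β * s ^ 2 * t
        - 512 * β * s + 110592 * β ^ 2 * t ^ 2))) := by
  simp only [covFour]; ring

lemma covQuartic_local {R : Type*} [CommRing R] (c β t s M : R) :
    covQuartic (c ^ 2) (c ^ 3 * (-1 - 864 * (t ^ 3 * β))) (c * (1 + t * s) * M) M =
      t ^ 3 * (c ^ 4 * M ^ 4 * (27 * (256 * β * (1 + t * s)) + s ^ 3 * (4 + t * s))) := by
  simp only [covQuartic]; ring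

lemma dvd_covFour_sub (a b n : ℤ) (M : ℕ) :
    (M : ℤ) ∣ covFour a b ((M : ℤ) * n + 1) M - a := by
  rw [← ZMod.intCast_zmod_eq_zero_iff_dvd, Int.cast_sub,
    ← eq_intCast (Int.castRingHom (ZMod M)), map_covFour]
  simp [covFour_one_zero]

lemma dvd_covSix_sub (a b n : ℤ) (M : ℕ) :
    (M : ℤ) ∣ covSix a b ((M : ℤ) * n + 1) M - b := by
  rw [← ZMod.intCast_zmod_eq_zero_iff_dvd, Int.cast_sub,
    ← eq_intCast (Int.castRingHom (ZMod M)), map_covSix]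
  simp [covSix_one_zero]

/-- On the line through a nonsingular pair, `H` and `T` do not vanish together. -/
lemma hesse_not_both_zero {F : Type*} [Field F] (h6 : (6 : F) ≠ 0) {a b l m : F}
    (hab : a ^ 3 - b ^ 2 ≠ 0) (hm : m ≠ 0) (h4 : covFour a b l m = 0)
    (h6' : covSix a b l m = 0) : False := by
  set j := algebraMap F (AlgebraicClosure F)
  have h6Ω : (6 : AlgebraicClosure F) ≠ 0 := by
    rw [← map_ofNat j 6]; exact (_root_.map_ne_zero j).2 h6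
  have h2 : (2 : AlgebraicClosure F) ≠ 0 := fun e =>
    h6Ω (by linear_combination (3 : AlgebraicClosure F) * e)
  have h3 : (3 : AlgebraicClosure F) ≠ 0 := fun e =>
    h6Ω (by linear_combination (2 : AlgebraicClosure F) * e)
  obtain ⟨u, v, hH, hT, hf⟩ := Hesse.exists_base (a := j a) (b := j b) h6Ω
    (by rw [← map_pow, ← map_pow, ← map_sub]; exact (_root_.map_ne_zero j).2 hab)
  have hH0 : hesseH (Hesse.lineU u v (j l) (j m)) (Hesse.lineV u v (j l) (j m)) = 0 := by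
    rw [Hesse.hesseH_line, hH, hT, ← map_covFour, h4, map_zero]
  have hT0 : hesseT (Hesse.lineU u v (j l) (j m)) (Hesse.lineV u v (j l) (j m)) = 0 := by
    rw [Hesse.hesseT_line, hH, hT, ← map_covSix, h6', map_zero]
  have hs := hesse_syzygy (Hesse.lineU u v (j l) (j m)) (Hesse.lineV u v (j l) (j m))
  rw [hH0, hT0] at hs
  have h64 : (64 : AlgebraicClosure F) ≠ 0 := by
    rw [show (64 : AlgebraicClosure F) = 2 ^ 6 by norm_num]; exact pow_ne_zero _ h2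
  have hF0 : hesseF (Hesse.lineU u v (j l) (j m)) (Hesse.lineV u v (j l) (j m)) = 0 :=
    eq_zero_of_pow_eq_zero (n := 3) ((mul_eq_zero.1 (hs.symm.trans (by ring))).resolve_left h64)
  obtain ⟨hU, hV⟩ := Hesse.eq_zero_of_hesseF_hesseH h3 hF0 hH0
  exact hm ((_root_.map_eq_zero j).1 (Hesse.eq_zero_of_line_eq_zero
    (show (4 : AlgebraicClosure F) ≠ 0 by
      rw [show (4 : AlgebraicClosure F) = 2 ^ 2 by norm_num]; exact pow_ne_zero _ h2)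
    hf hU hV).2)

private lemma check_three : ∀ d T c M : ZMod 3, d ≠ 0 → (T = 0 ∨ T = 1 ∧ d = 1) → c ≠ 0 → M ≠ 0 →
    c ^ 6 * M ^ 4 * (-(d + T)) ^ 4 ≠ 0 ∧
      d * (c ^ 4 * M ^ 4 * ((-(d + T)) ^ 3 * (4 + T * -(d + T)))) ^ 3 + 1 = 0 := by
  decide

theorem switchAnomalous : SwitchAnomalous := by
  intro W hΔ hW hflat hss
  have : Fact (Nat.Prime 3) := ⟨Nat.prime_three⟩
  by_cases hA : AnomalousTwoThree W
  · exact ⟨W, hΔ, hW, hA, AlmostCongr.refl 3 W⟩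
  have hc₄ : ¬ (3 : ℤ) ∣ W.c₄ := fun h => by
    by_cases h3 : (3 : ℤ) ∣ W.Δ
    · exact hW 3 Nat.prime_three (by exact_mod_cast h3) (by exact_mod_cast h)
    · exact hss ⟨h3, h⟩
  obtain ⟨k, hk⟩ := hflat
  obtain ⟨t, ht⟩ : ∃ t : ℤ, t = 3 ^ k := ⟨_, rfl⟩
  obtain ⟨D₀, hD₀⟩ : t ^ 3 ∣ W.Δ := by
    have h := padicValInt_dvd (p := 3) W.Δ
    rw [hk, pow_mul'] at h
    rw [ht]
    exact_mod_cast h
  have hD₀3 : ¬ (3 : ℤ) ∣ D₀ := by
    rintro ⟨r, rfl⟩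
    have h : ((3 : ℕ) : ℤ) ^ (3 * k + 1) ∣ W.Δ :=
      ⟨r, by rw [hD₀, ht]; push_cast; ring⟩
    rcases (padicValInt_dvd_iff (p := 3) _ _).1 h with h | h
    · exact hΔ h
    · omega
  obtain ⟨c, B, hc, ha, hb, hd⟩ := exists_normal W hc₄ (4 * k + 1)
  have ht3 : t ^ 3 ∣ (3 : ℤ) ^ (4 * k + 1) := by
    rw [ht, ← pow_mul]; exact pow_dvd_pow 3 (by omega)
  obtain ⟨β, rfl⟩ : t ^ 3 ∣ B := by
    have h1 : t ^ 3 ∣ c ^ 6 * (1 + 432 * B) * B := by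
      have := dvd_sub (Dvd.intro D₀ hD₀.symm : t ^ 3 ∣ W.Δ) (ht3.trans hd)
      rw [sub_sub_cancel] at this
      rw [← dvd_neg]
      exact this.trans (dvd_of_eq (by ring))
    refine IsCoprime.dvd_of_dvd_mul_left ?_ h1
    rw [ht, ← pow_mul]
    refine ((isCoprime_three_pow hc _).pow_left.mul_left (isCoprime_three_pow ?_ _)).symm
    omega
  set M₀ := awayModulus W with hM₀
  have hM₀3' : ¬ (3 : ℤ) ∣ M₀ := by exact_mod_cast not_three_dvd_awayModulus hΔ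
  obtain ⟨s, hs⟩ : ∃ s : ℤ, s = -(D₀ + t) := ⟨_, rfl⟩
  obtain ⟨Mi, hMi⟩ := exists_inverse (isCoprime_three_pow hM₀3' (4 * k + 1))
  obtain ⟨n, hn⟩ : ∃ n : ℤ, n = (c * (1 + t * s) * M₀ - 1) * Mi := ⟨_, rfl⟩
  obtain ⟨l, hl⟩ : ∃ l : ℤ, l = (M₀ : ℤ) * n + 1 := ⟨_, rfl⟩
  have hl' : (3 : ℤ) ^ (4 * k + 1) ∣ l - c * (1 + t * s) * M₀ := by
    have : l - c * (1 + t * s) * M₀ = (c * (1 + t * s) * M₀ - 1) * ((M₀ : ℤ) * Mi - 1) := by
      rw [hl, hn]; ring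
    rw [this]; exact hMi.mul_left _
  obtain ⟨X₄, hX₄⟩ : ∃ X₄ : ℤ, X₄ = c ^ 6 * (M₀ : ℤ) ^ 4 * (s ^ 4 + 27 * (-128 * β * s ^ 3 * t ^ 2
    - 384 * β * s ^ 2 * t - 512 * β * s + 110592 * β ^ 2 * t ^ 2)) :=
    ⟨_, rfl⟩
  obtain ⟨Y, hY⟩ : ∃ Y : ℤ, Y = c ^ 4 * (M₀ : ℤ) ^ 4 * (27 * (256 * β * (1 + t * s)) + s ^ 3 * (4 + t * s)) :=
    ⟨_, rfl⟩
  have hcast : (((3 ^ (4 * k + 1) : ℕ) : ℤ)) = 3 ^ (4 * k + 1) := by push_cast; ring
  rw [← hcast, ← ZMod.intCast_zmod_eq_zero_iff_dvd, Int.cast_sub, sub_eq_zero] at ha hb hl'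
  set φ := Int.castRingHom (ZMod (3 ^ (4 * k + 1))) with hφ
  have h4loc : (3 : ℤ) ^ (4 * k + 1) ∣ covFour W.c₄ W.c₆ l M₀ - t ^ 4 * X₄ := by
    rw [← hcast, ← ZMod.intCast_zmod_eq_zero_iff_dvd, Int.cast_sub, sub_eq_zero, hX₄,
      ← eq_intCast φ, ← covFour_local, map_covFour, ← eq_intCast φ, map_covFour]
    simp only [hφ, eq_intCast, ha, hb, hl']
  have hQloc : (3 : ℤ) ^ (4 * k + 1) ∣ covQuartic W.c₄ W.c₆ l M₀ - t ^ 3 * Y := by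
    rw [← hcast, ← ZMod.intCast_zmod_eq_zero_iff_dvd, Int.cast_sub, sub_eq_zero, hY,
      ← eq_intCast φ, ← covQuartic_local, map_covQuartic, ← eq_intCast φ, map_covQuartic]
    simp only [hφ, eq_intCast, ha, hb, hl']
  obtain ⟨e₄, he₄⟩ := h4loc
  obtain ⟨eQ, heQ⟩ := hQloc
  have htN : (3 : ℤ) ^ (4 * k + 1) = 3 * t ^ 4 := by rw [ht, pow_succ, pow_mul']; ring
  obtain ⟨C, hCdef⟩ : ∃ C : ℤ, C = X₄ + 3 * e₄ := ⟨_, rfl⟩
  obtain ⟨δ, hδdef⟩ : ∃ δ : ℤ, δ = Y + 3 * (t * eQ) := ⟨_, rfl⟩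
  have hC : covFour W.c₄ W.c₆ l M₀ = t ^ 4 * C := by
    rw [eq_add_of_sub_eq he₄, htN, hCdef]; ring
  have hQ : covQuartic W.c₄ W.c₆ l M₀ = t ^ 3 * δ := by
    rw [eq_add_of_sub_eq heQ, htN, hδdef]; ring
  -- modulo 3
  have hmod : ¬ (3 : ℤ) ∣ C ∧ (3 : ℤ) ∣ D₀ * δ ^ 3 + 1 := by
    have hz : ∀ z : ℤ, ¬ (3 : ℤ) ∣ z → (z : ZMod 3) ≠ 0 := fun z h e =>
      h ((ZMod.intCast_zmod_eq_zero_iff_dvd _ 3).1 e)
    have hT : (t : ZMod 3) = 0 ∨ (t : ZMod 3) = 1 ∧ (D₀ : ZMod 3) = 1 := by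
      rcases Nat.eq_zero_or_pos k with hk0 | hk0
      · right
        subst hk0
        refine ⟨by simp [ht], ?_⟩
        have hA' : ¬ (3 : ℤ) ∣ D₀ + 1 := fun h => hA ⟨hc₄, by
          rw [hD₀, ht]; simpa using h⟩
        rw [← sub_eq_zero, ← Int.cast_one, ← Int.cast_sub, ZMod.intCast_zmod_eq_zero_iff_dvd]
        omega
      · left
        rw [ZMod.intCast_zmod_eq_zero_iff_dvd, ht]
        exact dvd_pow_self 3 hk0.ne'
    obtain ⟨h1, h2⟩ := check_three D₀ t c (M₀ : ℤ) (hz _ hD₀3) hT (hz _ hc) (hz _ hM₀3')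
    constructor
    · intro h
      rw [← Nat.cast_ofNat, ← ZMod.intCast_zmod_eq_zero_iff_dvd] at h
      apply h1
      rw [← h, hCdef, hX₄, hs]
      push_cast
      rw [show (27 : ZMod 3) = 0 from rfl, show (3 : ZMod 3) = 0 from rfl]
      ring
    · rw [← Nat.cast_ofNat, ← ZMod.intCast_zmod_eq_zero_iff_dvd, ← h2, hδdef, hY, hs]
      push_cast
      rw [show (27 : ZMod 3) = 0 from rfl, show (3 : ZMod 3) = 0 from rfl]
      ring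
  obtain ⟨hC3, hD3⟩ := hmod
  -- `S`
  have hid : covFour W.c₄ W.c₆ l M₀ ^ 3 - covSix W.c₄ W.c₆ l M₀ ^ 2 =
      (t ^ 6) ^ 2 * (1728 * (D₀ * δ ^ 3)) := by
    rw [cov_identity, ← W.c_relation, hQ, hD₀]; ring
  have ht0 : t ≠ 0 := ht ▸ pow_ne_zero _ (by norm_num)
  obtain ⟨S, hS⟩ : ∃ S : ℤ, (S : ℚ) = (covSix W.c₄ W.c₆ l M₀ : ℤ) / (t : ℚ) ^ 6 := by
    refine exists_int_of_sq (n := C ^ 3 - 1728 * (D₀ * δ ^ 3)) ?_
    rw [div_pow, div_eq_iff (by positivity)]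
    rw [hC] at hid
    have := congrArg (fun z : ℤ => (z : ℚ)) hid
    push_cast at this ⊢
    linear_combination -this
  have hS6 : covSix W.c₄ W.c₆ l M₀ = t ^ 6 * S := by
    have : ((covSix W.c₄ W.c₆ l M₀ : ℤ) : ℚ) = (t : ℚ) ^ 6 * S := by
      rw [hS, mul_div_cancel₀ _ (by positivity)]
    exact_mod_cast this
  have hCS : C ^ 3 - S ^ 2 = 1728 * (D₀ * δ ^ 3) := by
    refine mul_left_cancel₀ (pow_ne_zero 2 (pow_ne_zero 6 ht0)) ?_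
    rw [← hid, hC, hS6]; ring
  -- away from 3
  obtain ⟨lam, hlam⟩ := exists_inverse
    (show IsCoprime t (M₀ : ℤ) from ht ▸ (isCoprime_three_pow hM₀3' k).symm)
  have h4 : (M₀ : ℤ) ∣ C - lam ^ 4 * W.c₄ := dvd_sub_pow_mul 4 hlam (by
    rw [← hC, hl]; exact dvd_covFour_sub _ _ _ _)
  have h6 : (M₀ : ℤ) ∣ S - lam ^ 6 * W.c₆ := dvd_sub_pow_mul 6 hlam (by
    rw [← hS6, hl]; exact dvd_covSix_sub _ _ _ _)
  obtain ⟨γ, hγ, hγ'⟩ := exists_beta hCS hC3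
  obtain ⟨W', hW4, hW6, hWΔ⟩ := exists_model W hCS (two_pow_dvd_awayModulus.trans h4)
    (two_pow_dvd_awayModulus.trans h6) hγ hγ'
  have hΔ' : W'.Δ ≠ 0 := fun e => by
    rw [← hWΔ, e] at hD3
    norm_num at hD3
  have hrelF : ∀ (ℓ : ℕ), (W.c₄ : ZMod ℓ) ^ 3 - (W.c₆ : ZMod ℓ) ^ 2 = 1728 * (W.Δ : ZMod ℓ) :=
    fun ℓ => by
      have := congrArg (fun z : ℤ => (z : ZMod ℓ)) W.c_relation
      push_cast at this
      exact this.symm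
  refine ⟨W', hΔ', fun p hp hpΔ => ?_, ⟨hW4 ▸ hC3, hWΔ ▸ hD3⟩, ?_⟩
  · rcases eq_or_ne p 3 with rfl | hp3
    · rw [hW4]; exact_mod_cast hC3
    by_cases hpM : (p : ℤ) ∣ M₀
    · exact not_dvd_c₄_of_congr hW hp hp3 hpM two_pow_dvd_awayModulus (not_dvd_lam hp hpM hlam)
        (hW4 ▸ h4) (hW6 ▸ h6) hpΔ
    intro h4'
    have := Fact.mk hp
    obtain ⟨h330, hΔp⟩ := ne_zero_of_not_dvd hp hp3 hpM
    obtain ⟨h2, h3, -, -⟩ := ne_zero_small h330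
    set ψ := Int.castRingHom (ZMod p)
    rw [hW4, ← ZMod.intCast_zmod_eq_zero_iff_dvd] at h4'
    rw [hWΔ, ← ZMod.intCast_zmod_eq_zero_iff_dvd] at hpΔ
    have hS0 : ψ S = 0 := by
      have := congrArg ψ hCS
      rw [map_sub, map_pow, map_pow, show ψ C = 0 from h4', map_mul ψ (1728 : ℤ),
        show ψ (D₀ * δ ^ 3) = 0 from hpΔ, mul_zero, zero_pow three_ne_zero, zero_sub,
        neg_eq_zero] at this
      exact eq_zero_of_pow_eq_zero this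
    have h6p : (6 : ZMod p) ≠ 0 := by
      rw [show (6 : ZMod p) = 2 * 3 by norm_num]; exact mul_ne_zero h2 h3
    refine hesse_not_both_zero h6p (a := ψ W.c₄) (b := ψ W.c₆) (l := ψ l) (m := ψ (M₀ : ℤ))
      ?_ ?_ ?_ ?_
    · show (W.c₄ : ZMod p) ^ 3 - (W.c₆ : ZMod p) ^ 2 ≠ 0
      rw [hrelF, show (1728 : ZMod p) = 2 ^ 6 * 3 ^ 3 by norm_num]
      exact mul_ne_zero (mul_ne_zero (pow_ne_zero _ h2) (pow_ne_zero _ h3)) hΔp
    · show (((M₀ : ℤ)) : ZMod p) ≠ 0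
      exact fun e => hpM ((ZMod.intCast_zmod_eq_zero_iff_dvd _ _).1 e)
    · rw [← map_covFour, hC, map_mul, show ψ C = 0 from h4', mul_zero]
    · rw [← map_covSix, hS6, map_mul, hS0, mul_zero]
  · refine almostCongr_of_trace (330 * M₀).primeFactors (t := t) (C := t ^ 4 * C)
      (S := t ^ 6 * S) (by rw [hW4]) (by rw [hW6]) fun ℓ _ hℓB hD' hDW => ?_
    have hℓ : ℓ.Prime := Fact.out
    rw [Nat.mem_primeFactors] at hℓB
    have h330' : ¬ ℓ ∣ 330 := fun h => hℓB ⟨hℓ, h.mul_right _,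
      Nat.mul_ne_zero (by norm_num) (awayModulus_pos hΔ).ne'⟩
    have h330 : (330 : ZMod ℓ) ≠ 0 := fun e =>
      h330' ((ZMod.natCast_eq_zero_iff 330 ℓ).1 (by exact_mod_cast e))
    obtain ⟨h2, h3, -, -⟩ := ne_zero_small h330
    have h1728 : (1728 : ZMod ℓ) ≠ 0 := by
      rw [show (1728 : ZMod ℓ) = 2 ^ 6 * 3 ^ 3 by norm_num]
      exact mul_ne_zero (pow_ne_zero _ h2) (pow_ne_zero _ h3)
    have htℓ : (t : ZMod ℓ) ≠ 0 := by rw [ht]; push_cast; exact pow_ne_zero _ h3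
    refine ⟨h2, h3, htℓ, ?_⟩
    set ψ := Int.castRingHom (ZMod ℓ)
    have h6ℓ : (6 : ZMod ℓ) ≠ 0 := by
      rw [show (6 : ZMod ℓ) = 2 * 3 by norm_num]; exact mul_ne_zero h2 h3
    refine Hesse.trace_congr h6ℓ (l := ψ l) (m := ψ (M₀ : ℤ)) ?_ ?_ ?_ ?_
    · rw [hrelF]; exact mul_ne_zero h1728 hDW
    · show ψ (t ^ 4 * C) = covFour (ψ W.c₄) (ψ W.c₆) (ψ l) (ψ (M₀ : ℤ))
      rw [← map_covFour, hC]
    · show ψ (t ^ 6 * S) = covSix (ψ W.c₄) (ψ W.c₆) (ψ l) (ψ (M₀ : ℤ))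
      rw [← map_covSix, hS6]
    · show ψ (t ^ 4 * C) ^ 3 - ψ (t ^ 6 * S) ^ 2 ≠ 0
      rw [← map_pow, ← map_pow, ← map_sub,
        show (t ^ 4 * C) ^ 3 - (t ^ 6 * S) ^ 2 = t ^ 12 * (1728 * W'.Δ) by
          rw [hWΔ]; linear_combination t ^ 12 * hCS, map_mul, map_mul, map_pow, map_ofNat]
      exact mul_ne_zero (pow_ne_zero _ htℓ) (mul_ne_zero h1728 hD')

end FermatAgent.Switch.Chain
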