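import Fermat.Agent.X015.Semistable
import Fermat.Agent.Switch.Chain.Three
import Fermat.Agent.Switch.Chain.Sieve

/-!
# The switch along the Hesse family to an irreducible mod 5 representation
-/

set_option autoImplicit false

open WeierstrassCurve

namespace FermatAgent.Switch.Chain

open Hesse

private lemma padicValInt_mono {ℓ : ℕ} [Fact ℓ.Prime] {x y : ℤ} (h : x ∣ y) (hy : y ≠ 0) :
    padicValInt ℓ x ≤ padicValInt ℓ y :=
  ((padicValInt_dvd_iff _ y).1 ((padicValInt_dvd x).trans h)).resolve_left hy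

private lemma padicValInt_pow' {ℓ : ℕ} [Fact ℓ.Prime] {x : ℤ} (hx : x ≠ 0) (k : ℕ) :
    padicValInt ℓ (x ^ k) = k * padicValInt ℓ x := by
  induction k with
  | zero => simp
  | succ k ih => rw [pow_succ, padicValInt.mul (pow_ne_zero _ hx) hx, ih]; ring

/-- A semistable point of `X₀(5)` on the family has small quartic value. -/
lemma five_param_bound {Δ D c p q : ℤ} (hΔ : Δ ≠ 0) (hD : D ≠ 0) (hcop : IsCoprime (Δ * D ^ 3) c)
    (hDΔ : IsCoprime D Δ) (hfree : ∀ ℓ : ℕ, ℓ.Prime → (ℓ : ℤ) ∣ D → ¬ (ℓ : ℤ) ^ 5 ∣ D)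
    (hp : p ≠ 0) (hq : q ≠ 0) (hpq : IsCoprime p q)
    (h : (p ^ 2 + 10 * p * q + 5 * q ^ 2) ^ 3 * (Δ * D ^ 3) = p * q ^ 5 * c ^ 3) :
    D ^ 6 ≤ 10 * |c| + 90 * Δ ^ 2 := by
  obtain ⟨P, hP⟩ : ∃ P, P = p ^ 2 + 10 * p * q + 5 * q ^ 2 := ⟨_, rfl⟩
  rw [← hP] at h
  have hPq : IsCoprime P q := by
    rw [hP, show p ^ 2 + 10 * p * q + 5 * q ^ 2 = p ^ 2 + q * (10 * p + 5 * q) by ring]
    exact (hpq.pow_left (m := 2)).add_mul_left_left _
  have hΔ' : Δ * D ^ 3 ≠ 0 := mul_ne_zero hΔ (pow_ne_zero _ hD)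
  have h1 : q ^ 5 ∣ Δ * D ^ 3 := (hPq.pow (m := 3) (n := 5)).symm.dvd_of_dvd_mul_left
    ⟨p * c ^ 3, by rw [h]; ring⟩
  have h2 : Δ * D ^ 3 ∣ p * q ^ 5 := (hcop.pow_right (n := 3)).dvd_of_dvd_mul_right
    ⟨P ^ 3, by rw [← h]; ring⟩
  have hqD : IsCoprime q D := by
    rw [Int.isCoprime_iff_nat_coprime]
    refine Nat.coprime_of_dvd fun ℓ hℓ hlq hlD => ?_
    rw [← Int.natCast_dvd] at hlq hlD
    have := Fact.mk hℓ
    have hu : ¬ IsUnit (ℓ : ℤ) := (Nat.prime_iff_prime_int.1 hℓ).not_isUnit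
    have hlp : ¬ (ℓ : ℤ) ∣ p := fun e => hu (hpq.isUnit_of_dvd' e hlq)
    have hlΔ : ¬ (ℓ : ℤ) ∣ Δ := fun e => hu (hDΔ.isUnit_of_dvd' hlD e)
    have a1 := padicValInt_mono (ℓ := ℓ) h1 hΔ'
    have a2 := padicValInt_mono (ℓ := ℓ) h2 (mul_ne_zero hp (pow_ne_zero _ hq))
    rw [padicValInt.mul hΔ (pow_ne_zero _ hD), padicValInt_pow' hD, padicValInt_pow' hq,
      padicValInt.eq_zero_of_not_dvd hlΔ] at a1
    rw [padicValInt.mul hΔ (pow_ne_zero _ hD), padicValInt.mul hp (pow_ne_zero _ hq),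
      padicValInt_pow' hD, padicValInt_pow' hq, padicValInt.eq_zero_of_not_dvd hlΔ,
      padicValInt.eq_zero_of_not_dvd hlp] at a2
    have hv : 1 ≤ padicValInt ℓ D :=
      ((padicValInt_dvd_iff 1 D).1 (by simpa using hlD)).resolve_left hD
    exact hfree ℓ hℓ hlD ((padicValInt_dvd_iff 5 D).2 (Or.inr (by omega)))
  have hqΔ : q ^ 5 ∣ Δ := (hqD.pow (m := 5) (n := 3)).dvd_of_dvd_mul_right h1
  have hq5 : |q| ^ 5 ≤ |Δ| := by
    rw [← abs_pow]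
    exact Int.le_of_dvd (abs_pos.2 hΔ) ((abs_dvd_abs _ _).2 hqΔ)
  have hD3 : |D| ^ 3 ≤ |p| := by
    have h3 : |Δ| * |D| ^ 3 ≤ |p| * |q| ^ 5 := by
      rw [← abs_pow, ← abs_mul, ← abs_pow, ← abs_mul]
      exact Int.le_of_dvd (abs_pos.2 (mul_ne_zero hp (pow_ne_zero _ hq))) ((abs_dvd_abs _ _).2 h2)
    refine le_of_mul_le_mul_left ?_ (abs_pos.2 hΔ)
    rw [mul_comm |Δ| |p|]
    exact h3.trans (mul_le_mul_of_nonneg_left hq5 (abs_nonneg p))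
  have hP5 : |P| ≤ 5 * |c| := by
    have h125 : p * q ^ 5 ∣ 125 * (Δ * D ^ 3) := by
      refine (hpq.pow_right (n := 5)).mul_dvd ?_ (h1.mul_left _)
      obtain ⟨u, v, huv⟩ := hpq
      obtain ⟨x, hx⟩ : ∃ x, 5 = p * x + v ^ 2 * P :=
        ⟨5 * u ^ 2 * p + 10 * u * v * q - v ^ 2 * (p + 10 * q), by
          rw [hP]; linear_combination -(5 * (u * p + v * q + 1)) * huv⟩
      refine ⟨(p ^ 2 * x ^ 3 + 3 * p * x ^ 2 * (v ^ 2 * P) + 3 * x * (v ^ 2 * P) ^ 2) * (Δ * D ^ 3)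
        + v ^ 6 * q ^ 5 * c ^ 3, ?_⟩
      rw [show (125 : ℤ) = 5 ^ 3 by norm_num, hx]
      linear_combination v ^ 6 * h
    have hb := Int.le_of_dvd (by positivity) ((abs_dvd_abs _ _).2 h125)
    refine (pow_le_pow_iff_left₀ (abs_nonneg P) (by positivity) (by norm_num : 3 ≠ 0)).1
      (le_of_mul_le_mul_right ?_ (abs_pos.2 hΔ'))
    calc |P| ^ 3 * |Δ * D ^ 3| = |p * q ^ 5| * |c| ^ 3 := by
          rw [← abs_pow, ← abs_mul, h, abs_mul, abs_pow c]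
      _ ≤ |125 * (Δ * D ^ 3)| * |c| ^ 3 := mul_le_mul_of_nonneg_right hb (by positivity)
      _ = (5 * |c|) ^ 3 * |Δ * D ^ 3| := by
          rw [abs_mul, show |(125 : ℤ)| = 125 by norm_num]; ring
  have hq2 : q ^ 2 ≤ Δ ^ 2 := sq_le_sq.2
    ((le_self_pow₀ (Int.one_le_abs hq) (by norm_num : 5 ≠ 0)).trans hq5)
  have hp2 : D ^ 6 ≤ p ^ 2 := by
    have := pow_le_pow_left₀ (by positivity) hD3 2
    rwa [← pow_mul, sq_abs, (show Even (3 * 2) by decide).pow_abs] at this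
  have hpP : p ^ 2 ≤ 2 * P + 90 * q ^ 2 := by
    have : 2 * P + 90 * q ^ 2 - p ^ 2 = (p + 10 * q) ^ 2 := by rw [hP]; ring
    linarith [sq_nonneg (p + 10 * q)]
  linarith [le_abs_self P]

/-- Bounds for the covariants far out on the line. -/
lemma cov_bounds (a b l m : ℤ) (hm : 0 ≤ m) (hl : m ≤ l) :
    |covFour a b l m| ≤ (|a| + 4 * |b| + 6 * a ^ 2 + 4 * |a * b| + 3 * |a| ^ 3 + 4 * b ^ 2) * l ^ 4 ∧
    |covQuartic a b l m - l ^ 4| ≤ (6 * |a| + 8 * |b| + 3 * a ^ 2) * (l ^ 2 * m ^ 2) := by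
  have hl0 : 0 ≤ l := hm.trans hl
  have t : ∀ (i j : ℕ), i + j = 4 → l ^ i * m ^ j ≤ l ^ 4 := fun i j hij =>
    (mul_le_mul_of_nonneg_left (pow_le_pow_left₀ hm hl j) (pow_nonneg hl0 i)).trans
      (le_of_eq (by rw [← pow_add, hij]))
  constructor
  · rw [abs_le]
    simp only [covFour]
    have n1 : 0 ≤ l ^ 4 := by positivity
    have n2 : 0 ≤ l ^ 3 * m := by positivity
    have n3 : 0 ≤ l ^ 2 * m ^ 2 := by positivity
    have n4 : 0 ≤ l * m ^ 3 := by positivity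
    have n5 : 0 ≤ m ^ 4 := by positivity
    have k2 : l ^ 3 * m ≤ l ^ 4 := by simpa using t 3 1 rfl
    have k3 : l ^ 2 * m ^ 2 ≤ l ^ 4 := t 2 2 rfl
    have k4 : l * m ^ 3 ≤ l ^ 4 := by simpa using t 1 3 rfl
    have k5 : m ^ 4 ≤ l ^ 4 := by simpa using t 0 4 rfl
    have ha3 : |a ^ 3| = |a| ^ 3 := abs_pow a 3
    constructor <;>
    nlinarith [mul_le_mul_of_nonneg_right (le_abs_self a) n1,
      mul_le_mul_of_nonneg_right (neg_abs_le a) n1,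
      mul_le_mul_of_nonneg_right (le_abs_self b) n2, mul_le_mul_of_nonneg_right (neg_abs_le b) n2,
      mul_le_mul_of_nonneg_left k2 (abs_nonneg b), mul_le_mul_of_nonneg_left k3 (sq_nonneg a),
      mul_le_mul_of_nonneg_right (le_abs_self (a * b)) n4,
      mul_le_mul_of_nonneg_right (neg_abs_le (a * b)) n4,
      mul_le_mul_of_nonneg_left k4 (abs_nonneg (a * b)),
      mul_le_mul_of_nonneg_right (le_abs_self (a ^ 3)) n5,
      mul_le_mul_of_nonneg_right (neg_abs_le (a ^ 3)) n5,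
      mul_le_mul_of_nonneg_left k5 (abs_nonneg (a ^ 3)), mul_le_mul_of_nonneg_left k5 (sq_nonneg b),
      mul_nonneg (sq_nonneg a) n1, mul_nonneg (sq_nonneg b) n5]
  · rw [abs_le]
    simp only [covQuartic]
    have n3 : 0 ≤ l ^ 2 * m ^ 2 := by positivity
    have n4 : 0 ≤ l * m ^ 3 := by positivity
    have k4 : l * m ^ 3 ≤ l ^ 2 * m ^ 2 := by
      nlinarith [mul_le_mul_of_nonneg_left hl (show (0 : ℤ) ≤ l * m ^ 2 by positivity)]
    have k5 : m ^ 4 ≤ l ^ 2 * m ^ 2 := by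
      nlinarith [mul_le_mul_of_nonneg_right (pow_le_pow_left₀ hm hl 2) (sq_nonneg m)]
    constructor <;>
    nlinarith [mul_le_mul_of_nonneg_right (le_abs_self a) n3,
      mul_le_mul_of_nonneg_right (neg_abs_le a) n3,
      mul_le_mul_of_nonneg_right (le_abs_self b) n4, mul_le_mul_of_nonneg_right (neg_abs_le b) n4,
      mul_le_mul_of_nonneg_left k4 (abs_nonneg b), mul_le_mul_of_nonneg_left k5 (sq_nonneg a),
      mul_nonneg (sq_nonneg a) n3, mul_nonneg (sq_nonneg a) (show (0 : ℤ) ≤ m ^ 4 by positivity)]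

private lemma size_absurd {l D C K Δ E : ℤ} (hl : 0 < l) (hlow : l ^ 4 ≤ 2 * D)
    (hb : D ^ 6 ≤ 10 * |C| + 90 * Δ ^ 2) (hC : |C| ≤ K * l ^ 4)
    (hE : E = 64 * (10 * K + 90 * Δ ^ 2)) (hlE : E < l) : False := by
  have h6 := pow_le_pow_left₀ (by positivity : (0 : ℤ) ≤ l ^ 4) hlow 6
  have h7 : l ^ 20 * l ^ 4 ≤ E * l ^ 4 := by
    have e1 : (l ^ 4) ^ 6 = l ^ 20 * l ^ 4 := by ring
    have e2 : (2 * D) ^ 6 = 64 * D ^ 6 := by ring
    have e3 : Δ ^ 2 ≤ Δ ^ 2 * l ^ 4 := le_mul_of_one_le_right (sq_nonneg _) (one_le_pow₀ hl)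
    rw [hE]
    linarith
  have := le_of_mul_le_mul_right h7 (pow_pos hl 4)
  have h20 : l ≤ l ^ 20 := le_self_pow₀ hl (by norm_num)
  omega

theorem switchIrreducibleFive : SwitchIrreducibleFive := by
  intro W hΔ hW
  obtain ⟨m₀, hm₀⟩ : ∃ m₀ : ℕ, m₀ = 330 * W.Δ.natAbs := ⟨_, rfl⟩
  have hm₀pos : 0 < m₀ := by rw [hm₀]; have := Int.natAbs_pos.2 hΔ; omega
  obtain ⟨M, hM⟩ : ∃ M : ℕ, M = 1728 * m₀ := ⟨_, rfl⟩
  have hMc : (M : ℤ) = 1728 * m₀ := by rw [hM]; push_cast; ring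
  have hMpos : 0 < M := by rw [hM]; omega
  obtain ⟨K₄, hK₄⟩ : ∃ K : ℤ, K = |W.c₄| + 4 * |W.c₆| + 6 * W.c₄ ^ 2 + 4 * |W.c₄ * W.c₆|
      + 3 * |W.c₄| ^ 3 + 4 * W.c₆ ^ 2 := ⟨_, rfl⟩
  obtain ⟨KQ, hKQ⟩ : ∃ K : ℤ, K = 6 * |W.c₄| + 8 * |W.c₆| + 3 * W.c₄ ^ 2 := ⟨_, rfl⟩
  have hK₄0 : 0 ≤ K₄ := by rw [hK₄]; positivity
  have hKQ0 : 0 ≤ KQ := by rw [hKQ]; positivity
  have hprime : ∀ ℓ : ℕ, ℓ.Prime → (ℓ : ℤ) ∣ W.c₄ ^ 3 - W.c₆ ^ 2 → ℓ ∣ M := by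
    intro ℓ hℓ hd
    rw [← W.c_relation] at hd
    rcases (Nat.prime_iff_prime_int.1 hℓ).dvd_or_dvd hd with h | h
    · rw [hM]; exact dvd_mul_of_dvd_left (by exact_mod_cast h) _
    · rw [hM, hm₀]; exact dvd_mul_of_dvd_right (dvd_mul_of_dvd_right (Int.natCast_dvd.1 h) _) _
  obtain ⟨E, hE⟩ : ∃ E : ℤ, E = 64 * (10 * K₄ + 90 * W.Δ ^ 2) := ⟨_, rfl⟩
  have hfacts : ∀ n : ℕ, (2 * KQ.natAbs + E.natAbs + 1) ≤ n →
      ((M : ℤ) * n + 1) ^ 4 ≤ 2 * covQuartic W.c₄ W.c₆ ((M : ℤ) * n + 1) M ∧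
      |covQuartic W.c₄ W.c₆ ((M : ℤ) * n + 1) M| ≤ (1 + KQ) * (2 * M) ^ 4 * (n : ℤ) ^ 4 ∧
      |covFour W.c₄ W.c₆ ((M : ℤ) * n + 1) M| ≤ K₄ * ((M : ℤ) * n + 1) ^ 4 := by
    intro n hn
    have hn1 : (2 * KQ + 1 : ℤ) ≤ n := by omega
    have hM1 : (1 : ℤ) ≤ M := by omega
    set l : ℤ := (M : ℤ) * n + 1 with hl
    have hn0 : (1 : ℤ) ≤ n := by omega
    have hlM : (M : ℤ) ≤ l := by
      have := le_mul_of_one_le_right (by omega : (0 : ℤ) ≤ M) hn0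
      omega
    obtain ⟨b1, b2⟩ := cov_bounds W.c₄ W.c₆ l M (by omega) hlM
    rw [← hK₄] at b1
    rw [← hKQ] at b2
    obtain ⟨b2l, b2u⟩ := abs_le.1 b2
    have hl0 : (0 : ℤ) ≤ l := by omega
    have hl2 : 2 * KQ * (M : ℤ) ^ 2 ≤ l ^ 2 := by
      have e1 : (n : ℤ) ≤ (n : ℤ) ^ 2 := le_self_pow₀ hn0 (by norm_num)
      have h1 : 2 * KQ * (M : ℤ) ^ 2 ≤ (n : ℤ) ^ 2 * (M : ℤ) ^ 2 :=
        mul_le_mul_of_nonneg_right (by omega) (sq_nonneg _)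
      refine h1.trans ?_
      rw [← mul_pow]
      refine pow_le_pow_left₀ (by positivity) ?_ 2
      rw [hl, mul_comm]; omega
    have hlow : 2 * (KQ * (l ^ 2 * (M : ℤ) ^ 2)) ≤ l ^ 4 := by
      have := mul_le_mul_of_nonneg_left hl2 (sq_nonneg l)
      rw [show l ^ 4 = l ^ 2 * l ^ 2 by ring]
      rw [show l ^ 2 * (2 * KQ * (M : ℤ) ^ 2) = 2 * (KQ * (l ^ 2 * (M : ℤ) ^ 2)) by ring] at this
      exact this
    refine ⟨by linarith, ?_, b1⟩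
    have hl4 : l ^ 4 ≤ (2 * (M : ℤ)) ^ 4 * (n : ℤ) ^ 4 := by
      rw [← mul_pow]
      refine pow_le_pow_left₀ hl0 ?_ 4
      have := mul_le_mul hM1 hn0 zero_le_one (by omega)
      rw [hl, mul_assoc]; omega
    have hnn : (0 : ℤ) ≤ KQ * (l ^ 2 * (M : ℤ) ^ 2) := by positivity
    have h1 : |covQuartic W.c₄ W.c₆ l M| ≤ (1 + KQ) * l ^ 4 := by
      have hKl : 0 ≤ KQ * l ^ 4 := by positivity
      have hl40 : 0 ≤ l ^ 4 := by positivity
      have hm2 : KQ * (l ^ 2 * (M : ℤ) ^ 2) ≤ KQ * l ^ 4 := by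
        refine mul_le_mul_of_nonneg_left ?_ hKQ0
        rw [show l ^ 4 = l ^ 2 * l ^ 2 by ring]
        exact mul_le_mul_of_nonneg_left (pow_le_pow_left₀ (by omega) hlM 2) (sq_nonneg l)
      rw [abs_le, add_mul, one_mul]
      constructor <;> linarith
    have hmul := mul_le_mul_of_nonneg_left hl4 (by omega : (0 : ℤ) ≤ 1 + KQ)
    exact h1.trans (hmul.trans (le_of_eq (by ring)))
  obtain ⟨n, hn, hfree⟩ := exists_fifthFree W.c₄ W.c₆ M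
    (by
      rw [hM, hm₀]
      exact dvd_mul_of_dvd_right (dvd_mul_of_dvd_left (by norm_num) _) _)
    hprime ((1 + KQ) * (2 * M) ^ 4).natAbs (2 * KQ.natAbs + E.natAbs + 1) (by
      intro n hn
      obtain ⟨h1, h2, -⟩ := hfacts n hn
      have hpos : (0 : ℤ) < ((M : ℤ) * n + 1) ^ 4 := by positivity
      refine ⟨by intro e; rw [e] at h1; omega, ?_⟩
      have h0 : (0 : ℤ) ≤ (1 + KQ) * (2 * M) ^ 4 := by positivity
      zify
      rw [abs_of_nonneg h0]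
      exact h2)
  obtain ⟨hlow, -, hC4⟩ := hfacts n hn
  obtain ⟨e, he⟩ := dvd_covFour_sub W.c₄ W.c₆ (n : ℤ) M
  obtain ⟨e', he'⟩ := dvd_covSix_sub W.c₄ W.c₆ (n : ℤ) M
  obtain ⟨D, hDdef⟩ : ∃ D, D = covQuartic W.c₄ W.c₆ ((M : ℤ) * n + 1) M := ⟨_, rfl⟩
  obtain ⟨δ, hδ⟩ : ∃ x, x = -36 * (m₀ : ℤ) * e := ⟨_, rfl⟩
  obtain ⟨η, hη⟩ : ∃ x, x = -3 * W.b₂ * (m₀ : ℤ) * e - 2 * (m₀ : ℤ) * e' := ⟨_, rfl⟩
  set W' : WeierstrassCurve ℤ := { W with a₄ := W.a₄ + δ, a₆ := W.a₆ + η } with hW'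
  have hW4 : W'.c₄ = covFour W.c₄ W.c₆ ((M : ℤ) * n + 1) M := by
    rw [eq_add_of_sub_eq he, hMc]
    simp only [hW', hδ, WeierstrassCurve.c₄, WeierstrassCurve.b₂, WeierstrassCurve.b₄]
    ring
  have hW6 : W'.c₆ = covSix W.c₄ W.c₆ ((M : ℤ) * n + 1) M := by
    rw [eq_add_of_sub_eq he', hMc]
    simp only [hW', hδ, hη, WeierstrassCurve.c₆, WeierstrassCurve.b₂, WeierstrassCurve.b₄,
      WeierstrassCurve.b₆]
    ring
  have hWΔ : W'.Δ = W.Δ * D ^ 3 := by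
    refine mul_left_cancel₀ (show (1728 : ℤ) ≠ 0 by norm_num) ?_
    rw [W'.c_relation, hW4, hW6, cov_identity, ← W.c_relation, hDdef]
    ring
  have hD0 : D ≠ 0 := by
    intro e0
    rw [← hDdef, e0] at hlow
    have : (0 : ℤ) < ((M : ℤ) * n + 1) ^ 4 := by positivity
    omega
  have hΔ' : W'.Δ ≠ 0 := by rw [hWΔ]; exact mul_ne_zero hΔ (pow_ne_zero _ hD0)
  have hmap : W'.map (Int.castRingHom (ZMod m₀)) = W.map (Int.castRingHom (ZMod m₀)) := by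
    ext <;> simp [hW', hδ, hη]
  have hss : W'.IsSemistableModel := by
    intro p hp hpΔ hpc
    have := Fact.mk hp
    by_cases hpm : p ∣ m₀
    · have e4 := congrArg (ZMod.castHom hpm (ZMod p) ∘ WeierstrassCurve.c₄) (congrArg id hmap)
      have eΔ := congrArg (ZMod.castHom hpm (ZMod p) ∘ WeierstrassCurve.Δ) (congrArg id hmap)
      simp only [Function.comp_apply, id_eq, WeierstrassCurve.map_c₄, WeierstrassCurve.map_Δ,
        eq_intCast, map_intCast] at e4 eΔ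
      rw [← ZMod.intCast_zmod_eq_zero_iff_dvd] at hpΔ hpc
      rw [eΔ, ZMod.intCast_zmod_eq_zero_iff_dvd] at hpΔ
      rw [e4, ZMod.intCast_zmod_eq_zero_iff_dvd] at hpc
      exact hW p hp hpΔ hpc
    have hp6 : (6 : ZMod p) ≠ 0 := fun e6 => hpm (by
      have h6 : p ∣ 6 := (ZMod.natCast_eq_zero_iff 6 p).1 (by exact_mod_cast e6)
      rw [hm₀]
      exact dvd_mul_of_dvd_left (h6.trans (by norm_num)) _)
    have hpM : ¬ p ∣ M := by
      rw [hM]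
      intro h
      rcases (Nat.Prime.dvd_mul hp).1 h with h | h
      · rw [show 1728 = (2 * 2 * 2) * (6 * 6 * 6) by norm_num] at h
        have h6 : p ∣ 6 := by
          simp only [Nat.Prime.dvd_mul hp] at h
          rcases h with ((h | h) | h) | ((h | h) | h) <;>
            first | exact h | exact h.trans (by norm_num)
        refine hp6 ?_
        exact_mod_cast (ZMod.natCast_eq_zero_iff 6 p).2 h6
      · exact hpm h
    rw [hW4] at hpc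
    rw [← ZMod.intCast_zmod_eq_zero_iff_dvd] at hpΔ hpc
    set ψ := Int.castRingHom (ZMod p)
    have hS0 : ψ W'.c₆ = 0 := by
      have := congrArg ψ W'.c_relation
      rw [map_mul ψ (1728 : ℤ), show ψ W'.Δ = 0 from hpΔ, mul_zero, map_sub, map_pow, map_pow,
        hW4, show ψ (covFour W.c₄ W.c₆ ((M : ℤ) * n + 1) M) = 0 from hpc,
        zero_pow three_ne_zero, zero_sub] at this
      exact eq_zero_of_pow_eq_zero (neg_eq_zero.1 this.symm)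
    refine hesse_not_both_zero hp6 (a := ψ W.c₄) (b := ψ W.c₆) (l := ψ ((M : ℤ) * n + 1))
      (m := ψ (M : ℤ)) (fun z => hpM (hprime p hp ?_)) (fun z => hpM ?_) ?_ ?_
    · rw [← map_pow, ← map_pow, ← map_sub] at z
      exact (ZMod.intCast_zmod_eq_zero_iff_dvd _ _).1 z
    · exact_mod_cast (ZMod.intCast_zmod_eq_zero_iff_dvd _ p).1 z
    · rw [← map_covFour]; exact hpc
    · rw [← map_covSix, ← hW6]; exact hS0
  refine ⟨W', hΔ', hss, ?_, ?_⟩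
  · by_contra hred
    obtain ⟨s, hs⟩ := X015.exists_five_param (E := W'.map (Int.castRingHom ℚ))
      (by simpa using hΔ') hred
    simp only [WeierstrassCurve.map_Δ, WeierstrassCurve.map_c₄, eq_intCast] at hs
    have hq : (s.den : ℤ) ≠ 0 := by exact_mod_cast s.den_ne_zero
    have hp : s.num ≠ 0 := fun e0 => by
      rw [Rat.num_eq_zero] at e0
      simp [e0, hΔ'] at hs
    have hpq : IsCoprime s.num (s.den : ℤ) := Int.isCoprime_iff_nat_coprime.2 s.reduced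
    have key : (s.num ^ 2 + 10 * s.num * (s.den : ℤ) + 5 * (s.den : ℤ) ^ 2) ^ 3 * W'.Δ =
        s.num * (s.den : ℤ) ^ 5 * W'.c₄ ^ 3 := by
      have : ((s.num : ℚ) ^ 2 + 10 * s.num * (s.den : ℚ) + 5 * (s.den : ℚ) ^ 2) ^ 3 * (W'.Δ : ℚ) =
          (s.num : ℚ) * (s.den : ℚ) ^ 5 * (W'.c₄ : ℚ) ^ 3 := by
        rw [← Rat.mul_den_eq_num s]
        linear_combination (s.den : ℚ) ^ 6 * hs
      exact_mod_cast this
    rw [hWΔ] at key
    have hcop : IsCoprime (W.Δ * D ^ 3) W'.c₄ := by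
      rw [← hWΔ, Int.isCoprime_iff_nat_coprime]
      exact Nat.coprime_of_dvd fun ℓ hℓ h1 h2 =>
        hss ℓ hℓ (Int.natCast_dvd.2 h1) (Int.natCast_dvd.2 h2)
    have hD1 : (M : ℤ) ∣ D - 1 := by
      rw [hDdef, ← ZMod.intCast_zmod_eq_zero_iff_dvd, Int.cast_sub,
        ← eq_intCast (Int.castRingHom (ZMod M)), map_covQuartic]
      simp [covQuartic_one_zero]
    have hDM : ∀ ℓ : ℕ, ℓ.Prime → (ℓ : ℤ) ∣ D → ¬ ℓ ∣ M := fun ℓ hℓ h1 h2 =>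
      (Nat.prime_iff_prime_int.1 hℓ).not_isUnit (isUnit_of_dvd_one (by
        simpa using dvd_sub h1 ((Int.natCast_dvd_natCast.2 h2).trans hD1)))
    have hDΔ : IsCoprime D W.Δ := by
      rw [Int.isCoprime_iff_nat_coprime]
      refine Nat.coprime_of_dvd fun ℓ hℓ h1 h2 => hDM ℓ hℓ (Int.natCast_dvd.2 h1) ?_
      rw [hM, hm₀]
      exact dvd_mul_of_dvd_right (dvd_mul_of_dvd_right h2 _) _
    have hb := five_param_bound hΔ hD0 hcop hDΔ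
      (fun ℓ hℓ h1 => hDdef ▸ hfree ℓ hℓ (hDM ℓ hℓ h1)) hp hq hpq key
    rw [← hW4] at hC4
    rw [← hDdef] at hlow
    have hlE : E < (M : ℤ) * n + 1 := by
      have := le_mul_of_one_le_left (by omega : (0 : ℤ) ≤ (n : ℤ)) (by omega : (1 : ℤ) ≤ (M : ℤ))
      omega
    exact size_absurd (by positivity) hlow hb hC4 hE hlE
  · refine almostCongr_of_trace M.primeFactors (t := 1) (C := W'.c₄) (S := W'.c₆) (by ring)
      (by ring) fun ℓ _ hℓB hD' hDW => ?_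
    have hℓ : ℓ.Prime := Fact.out
    rw [Nat.mem_primeFactors] at hℓB
    have hℓM : ¬ ℓ ∣ M := fun h => hℓB ⟨hℓ, h, hMpos.ne'⟩
    have hne : ∀ k : ℕ, k ∣ 1728 → (k : ZMod ℓ) ≠ 0 := fun k hk e0 => hℓM <| by
      rw [hM]
      exact dvd_mul_of_dvd_left (((ZMod.natCast_eq_zero_iff k ℓ).1 e0).trans hk) _
    refine ⟨by simpa using hne 2 (by norm_num), by simpa using hne 3 (by norm_num), by simp, ?_⟩
    set ψ := Int.castRingHom (ZMod ℓ)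
    refine Hesse.trace_congr (by simpa using hne 6 (by norm_num)) (l := ψ ((M : ℤ) * n + 1))
      (m := ψ (M : ℤ)) ?_ ?_ ?_ ?_
    · show ψ W.c₄ ^ 3 - ψ W.c₆ ^ 2 ≠ 0
      rw [← map_pow, ← map_pow, ← map_sub, ← W.c_relation, map_mul, map_ofNat]
      exact mul_ne_zero (by simpa using hne 1728 dvd_rfl) hDW
    · show ψ W'.c₄ = covFour (ψ W.c₄) (ψ W.c₆) (ψ ((M : ℤ) * n + 1)) (ψ (M : ℤ))
      rw [← map_covFour, hW4]
    · show ψ W'.c₆ = covSix (ψ W.c₄) (ψ W.c₆) (ψ ((M : ℤ) * n + 1)) (ψ (M : ℤ))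
      rw [← map_covSix, hW6]
    · show ψ W'.c₄ ^ 3 - ψ W'.c₆ ^ 2 ≠ 0
      rw [← map_pow, ← map_pow, ← map_sub, ← W'.c_relation, map_mul, map_ofNat]
      exact mul_ne_zero (by simpa using hne 1728 dvd_rfl) hD'

end FermatAgent.Switch.Chain
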