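import Fermat.Agent.Switch.Chain.FiveSwitches
import Fermat.Agent.Switch.Chain.IrreducibleFive
import Fermat.Agent.Switch.Chain.Criteria
import Fermat.Agent.Switch.Chain.Derive

/-!
# Modularity of semistable curves from the residual input at 3, the descent and lifting
-/

set_option autoImplicit false

open WeierstrassCurve

namespace FermatAgent.Switch.Chain

theorem switches : Switches :=
  ⟨switchFlat, switchAnomalous, switchSupersingular, switchIrreducibleFive⟩

variable (hLT : LTResidual) (hD : DescentNine) (hLift : Lifting)
include hLT hD hLift

/-- Exact conductor modularity of semistable curves. -/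
theorem exactConductor_of_inputs (W : WeierstrassCurve ℤ) (hΔ : W.Δ ≠ 0)
    (hW : W.IsSemistableModel) : Mlc1IsModularModelOfExactConductorLevel W :=
  exactConductor hLT hD hLift switches localCriteria X015.irreducible_three_or_five W hΔ hW

/-- S50 from the inputs. -/
theorem residualModularityThree_of_inputs (W : WeierstrassCurve ℤ) (hΔ : W.Δ ≠ 0)
    (hW : W.IsSemistableModel) (h3 : W.ModRepIsIrreducible 3) : Wiring.ResidualOutputThree W :=
  residualModularityThree hLT hD hLift switches localCriteria X015.irreducible_three_or_five
    W hΔ hW h3

end FermatAgent.Switch.Chain
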