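import Fermat.Agent.GalRep.Tate.Curve
import Fermat.Agent.GalRep.Density.Frobenius
import Fermat.Prelude.Def_FLTPrelim_ModularRep

/-!
# Congruences of `a_ℓ` at almost all primes hold at all good primes

Only the curve with irreducible `E[p]` needs a determinant; the other one only its Frobenius
relation.
-/

set_option autoImplicit false

open WeierstrassCurve

noncomputable section

namespace FermatAgent.Switch.Chain

local notation "Qb" => AlgebraicClosure ℚ
local notation "GQ" => AlgebraicClosure ℚ ≃ₐ[ℚ] AlgebraicClosure ℚ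

/-- The `a_ℓ` agree modulo `p` at almost all primes. -/
def AlmostCongr (p : ℕ) (W W' : WeierstrassCurve ℤ) : Prop :=
  ∃ B : Finset ℕ, ∀ ℓ : ℕ, ℓ.Prime → ℓ ∉ B → W.IsGoodPrimeFor ℓ → W'.IsGoodPrimeFor ℓ →
    (p : ℤ) ∣ W'.apOfModel ℓ - W.apOfModel ℓ

theorem AlmostCongr.refl (p : ℕ) (W : WeierstrassCurve ℤ) : AlmostCongr p W W :=
  ⟨∅, fun ℓ _ _ _ _ => by rw [sub_self]; exact dvd_zero _⟩

theorem AlmostCongr.trans {p : ℕ} {W W' W'' : WeierstrassCurve ℤ} (hW' : W'.Δ ≠ 0)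
    (h : AlmostCongr p W W') (h' : AlmostCongr p W' W'') : AlmostCongr p W W'' := by
  classical
  obtain ⟨B, hB⟩ := h
  obtain ⟨B', hB'⟩ := h'
  refine ⟨B ∪ B' ∪ W'.Δ.natAbs.primeFactors, fun ℓ hℓ hℓB h1 h3 => ?_⟩
  simp only [Finset.mem_union, not_or] at hℓB
  have h2 : W'.IsGoodPrimeFor ℓ := fun hd => hℓB.2 (Nat.mem_primeFactors.2
    ⟨hℓ, Int.natCast_dvd.1 hd, Int.natAbs_ne_zero.2 hW'⟩)
  have := dvd_add (hB ℓ hℓ hℓB.1.1 h1 h2) (hB' ℓ hℓ hℓB.1.2 h2 h3)
  rwa [add_comm, sub_add_sub_cancel] at this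

section Matrix

variable {R : Type*} [CommRing R]

/-- The quadratic relation passes to powers. -/
theorem pow_relation (A B : Matrix (Fin 2) (Fin 2) R)
    (h : B * B - A.trace • B + A.det • 1 = 0) (m : ℕ) :
    B ^ m * B ^ m - (A ^ m).trace • B ^ m + (A ^ m).det • 1 = 0 := by
  have sq : ∀ M : Matrix (Fin 2) (Fin 2) R, M * M = M.trace • M - M.det • 1 := by
    intro M
    ext i j
    fin_cases i <;> fin_cases j <;>
      simp [Matrix.mul_apply, Fin.sum_univ_two, Matrix.trace_fin_two, Matrix.det_fin_two] <;> ring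
  have hB : B * B = A.trace • B - A.det • 1 := by
    rw [← sub_eq_zero, ← h]; abel
  have key : ∀ n : ℕ, (A ^ n).trace • B ^ n = B ^ n * B ^ n + A.det ^ n • 1 := by
    intro n
    induction n using Nat.twoStepInduction with
    | zero => simp [two_smul]
    | one =>
      rw [pow_one, pow_one, pow_one, hB]; abel
    | more n ih1 ih2 =>
      have e : (A ^ (n + 2)).trace = A.trace * (A ^ (n + 1)).trace - A.det * (A ^ n).trace := by
        rw [pow_add, pow_two, sq A, mul_sub, mul_smul_comm, mul_smul_comm, mul_one, ← pow_succ,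
          Matrix.trace_sub, Matrix.trace_smul, Matrix.trace_smul, smul_eq_mul, smul_eq_mul]
      have e1 : B ^ (n + 2) = B * B ^ (n + 1) := pow_succ' B (n + 1)
      have e2 : B ^ (n + 2) = B * B * B ^ n := by rw [add_comm n 2, pow_add, pow_two]
      calc (A ^ (n + 2)).trace • B ^ (n + 2)
          = A.trace • (B * ((A ^ (n + 1)).trace • B ^ (n + 1)))
              - A.det • (B * B * ((A ^ n).trace • B ^ n)) := by
            rw [e, sub_smul, mul_smul, mul_smul, mul_smul_comm, mul_smul_comm, ← e1, ← e2]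
        _ = A.trace • (B * (B ^ (n + 1) * B ^ (n + 1)) + A.det ^ (n + 1) • B)
              - A.det • (B * B * (B ^ n * B ^ n) + A.det ^ n • (B * B)) := by
            rw [ih2, ih1, mul_add, mul_add, mul_smul_comm, mul_smul_comm, mul_one, mul_one]
        _ = B ^ (n + 2) * B ^ (n + 2) + A.det ^ (n + 2) • 1 := by
            have f1 : B * (B ^ (n + 1) * B ^ (n + 1)) = B * B ^ (2 * n + 2) := by
              rw [← pow_add]; congr 2; ring
            have f2 : B * B * (B ^ n * B ^ n) = B ^ (2 * n + 2) := by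
              rw [← pow_add, ← pow_two, ← pow_add]; congr 1; ring
            have f3 : B ^ (n + 2) * B ^ (n + 2) = B * B * B ^ (2 * n + 2) := by
              rw [← pow_add, ← pow_two, ← pow_add]; congr 1; ring
            rw [f1, f2, f3, hB, sub_mul, smul_mul_assoc, smul_mul_assoc, one_mul, smul_add,
              smul_add, smul_smul, smul_smul, ← pow_succ' A.det n, smul_sub, smul_smul,
              smul_smul]
            module
  rw [key, Matrix.det_pow]
  abel

end Matrix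

open GalRep GalRep.Tate

/-- Congruent traces at almost all primes give congruent traces at every good prime `≠ p`. -/
theorem congr_of_almostCongr {p : ℕ} [Fact p.Prime] {W W' : WeierstrassCurve ℤ} (hΔ : W.Δ ≠ 0)
    (hΔ' : W'.Δ ≠ 0) (hirr : W.ModRepIsIrreducible p) (h : AlmostCongr p W W') {q : ℕ}
    (hq : q.Prime) (hg : W.IsGoodPrimeFor q) (hg' : W'.IsGoodPrimeFor q) (hqp : q ≠ p) :
    (p : ℤ) ∣ W'.apOfModel q - W.apOfModel q := by
  classical
  have hD : (W.map (Int.castRingHom ℚ)).Δ ≠ 0 := by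
    rw [WeierstrassCurve.map_Δ, eq_intCast]; exact_mod_cast hΔ
  have hD' : (W'.map (Int.castRingHom ℚ)).Δ ≠ 0 := by
    rw [WeierstrassCurve.map_Δ, eq_intCast]; exact_mod_cast hΔ'
  have hns := hasNonscalar_of_irreducible W hD hirr
  obtain ⟨B, hB⟩ := h
  set π : ℤ_[p] →+* ZMod (p ^ 1) := PadicInt.toZModPow 1
  let f : GQ →* Matrix (Fin 2) (Fin 2) (ZMod (p ^ 1)) × Matrix (Fin 2) (Fin 2) (ZMod (p ^ 1)) :=
    (levelMat (p := p) hD 1).prod (levelMat (p := p) hD' 1)
  have hf : GaloisFactorsThroughFiniteLevel f := by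
    obtain ⟨L₁, hL₁, h₁⟩ := Local.galoisRep_factorsThroughFiniteLevel
      (W.map (Int.castRingHom ℚ)) hD (pow_ne_zero 1 (Fact.out : p.Prime).ne_zero)
    obtain ⟨L₂, hL₂, h₂⟩ := Local.galoisRep_factorsThroughFiniteLevel
      (W'.map (Int.castRingHom ℚ)) hD' (pow_ne_zero 1 (Fact.out : p.Prime).ne_zero)
    refine ⟨L₁ ⊔ L₂, IntermediateField.finiteDimensional_sup L₁ L₂, fun σ hσ => Prod.ext ?_ ?_⟩
    · show LinearMap.toMatrixAlgEquiv (torBasis hD 1) (Affine.Point.galoisRepModuleEnd ℚ _ (p ^ 1) σ) = 1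
      rw [h₁ σ fun x hx => hσ x (le_sup_left (b := L₂) hx), map_one]
    · show LinearMap.toMatrixAlgEquiv (torBasis hD' 1) (Affine.Point.galoisRepModuleEnd ℚ _ (p ^ 1) σ) = 1
      rw [h₂ σ fun x hx => hσ x (le_sup_right (a := L₁) hx), map_one]
  -- the three facts at a good Frobenius
  have hfrob : ∀ {ℓ : ℕ}, ℓ.Prime → ℓ ≠ p → ∀ {A : ValuationSubring Qb}, A.LiesOverPrime ℓ →
      ∀ {τ : GQ}, A.IsFrobeniusAt τ ℓ →
      (W.IsGoodPrimeFor ℓ → (f τ).1.trace = (W.apOfModel ℓ : ZMod (p ^ 1)) ∧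
        (f τ).1.det = (ℓ : ZMod (p ^ 1))) ∧
      (W'.IsGoodPrimeFor ℓ → (f τ).2 * (f τ).2 - (W'.apOfModel ℓ : ZMod (p ^ 1)) • (f τ).2
        + (ℓ : ZMod (p ^ 1)) • 1 = 0) := by
    intro ℓ hℓ hℓp A hA τ hτ
    constructor
    · intro hgood
      obtain ⟨ht, hd⟩ := trace_det_frobenius W hD hns hℓ hgood hℓp hA hτ
      constructor
      · show (levelMat (p := p) hD 1 τ).trace = _
        rw [← tateMatHom_toZModPow, RingHom.mapMatrix_apply, ← AddMonoidHom.map_trace, ht]
        exact map_intCast π _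
      · show (levelMat (p := p) hD 1 τ).det = _
        rw [← tateMatHom_toZModPow, ← RingHom.map_det, hd]
        exact map_natCast π _
    · intro hgood
      have h := congrArg π.mapMatrix (tateMatHom_frobenius_relation W' hD' hℓ hgood hℓp hA hτ)
      have hs : ∀ (c : ℤ_[p]) (X : Matrix (Fin 2) (Fin 2) ℤ_[p]),
          π.mapMatrix (c • X) = π c • π.mapMatrix X := fun c X => by
        ext i j; simp
      rw [map_add, map_sub, map_mul, hs, hs, map_one, map_zero, map_intCast, map_natCast,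
        tateMatHom_toZModPow] at h
      exact h
  set S : Set ℕ := ↑(B ∪ W.Δ.natAbs.primeFactors ∪ W'.Δ.natAbs.primeFactors ∪ {p})
  obtain ⟨A, σ, hA, hσ⟩ := RT.exists_place_isFrobeniusAt hq
  have hP : (f σ).2 * (f σ).2 - (f σ).1.trace • (f σ).2 + (f σ).1.det • 1 = 0 := by
    refine forall_of_frobenius f hf (S := S) (Finset.finite_toSet _)
      (fun x => x.2 * x.2 - x.1.trace • x.2 + x.1.det • 1 = 0)
      (fun x m hx => pow_relation x.1 x.2 hx m) ?_ σ
    intro ℓ hℓ hℓS A' hA' τ hτ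
    simp only [S, Finset.coe_union, Finset.coe_singleton, Set.mem_union, Set.mem_singleton_iff,
      Finset.mem_coe, Nat.mem_primeFactors, not_or, not_and] at hℓS
    have h1 : W.IsGoodPrimeFor ℓ := fun hd =>
      (hℓS.1.1.2 hℓ (Int.natCast_dvd.1 hd)) (Int.natAbs_ne_zero.2 hΔ)
    have h2 : W'.IsGoodPrimeFor ℓ := fun hd =>
      (hℓS.1.2 hℓ (Int.natCast_dvd.1 hd)) (Int.natAbs_ne_zero.2 hΔ')
    obtain ⟨hrel, hrel'⟩ := hfrob hℓ hℓS.2 hA' hτ
    obtain ⟨ht, hd⟩ := hrel h1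
    show (f τ).2 * (f τ).2 - (f τ).1.trace • (f τ).2 + (f τ).1.det • 1 = 0
    rw [ht, hd]
    have hc : (W'.apOfModel ℓ : ZMod (p ^ 1)) = (W.apOfModel ℓ : ZMod (p ^ 1)) := by
      rw [← sub_eq_zero, ← Int.cast_sub, ZMod.intCast_zmod_eq_zero_iff_dvd, pow_one]
      exact hB ℓ hℓ hℓS.1.1.1 h1 h2
    rw [← hc]
    exact hrel' h2
  obtain ⟨hrel, hrel'⟩ := hfrob hq hqp hA hσ
  obtain ⟨ht, hd⟩ := hrel hg
  have h2 := hrel' hg'
  rw [ht, hd] at hP
  have hsub : ((W'.apOfModel q - W.apOfModel q : ℤ) : ZMod (p ^ 1)) • (f σ).2 = 0 := by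
    calc ((W'.apOfModel q - W.apOfModel q : ℤ) : ZMod (p ^ 1)) • (f σ).2
        = ((f σ).2 * (f σ).2 - (W.apOfModel q : ZMod (p ^ 1)) • (f σ).2 + (q : ZMod (p ^ 1)) • 1)
          - ((f σ).2 * (f σ).2 - (W'.apOfModel q : ZMod (p ^ 1)) • (f σ).2
            + (q : ZMod (p ^ 1)) • 1) := by rw [Int.cast_sub, sub_smul]; abel
      _ = 0 := by rw [hP, h2, sub_zero]
  have hu : IsUnit (f σ).2 := (Group.isUnit σ).map (levelMat (p := p) hD' 1)
  have h0 : ((W'.apOfModel q - W.apOfModel q : ℤ) : ZMod (p ^ 1)) = 0 := by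
    obtain ⟨u, hu'⟩ := hu.exists_right_inv
    have h' := congrArg (fun X => X * u) hsub
    simp only [smul_mul_assoc, zero_mul] at h'
    rw [hu'] at h'
    simpa using congrFun (congrFun h' 0) 0
  rwa [ZMod.intCast_zmod_eq_zero_iff_dvd, pow_one] at h0

end FermatAgent.Switch.Chain
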