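import Fermat.Agent.Switch.Chain.Normal

/-!
# The modulus of the congruences away from 3
-/

set_option autoImplicit false

open WeierstrassCurve

namespace FermatAgent.Switch.Chain

/-- `2 ^ 11 * 55` times the prime-to-3 part of the discriminant. -/
def awayModulus (W : WeierstrassCurve ℤ) : ℕ := 2 ^ 11 * 55 * ordCompl[3] W.Δ.natAbs

variable {W : WeierstrassCurve ℤ}

lemma not_three_dvd_awayModulus (hΔ : W.Δ ≠ 0) : ¬ 3 ∣ awayModulus W := by
  intro h
  rcases (Nat.Prime.dvd_mul Nat.prime_three).1 h with h | h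
  · norm_num at h
  · exact Nat.not_dvd_ordCompl Nat.prime_three (Int.natAbs_ne_zero.2 hΔ) h

lemma awayModulus_pos (hΔ : W.Δ ≠ 0) : 0 < awayModulus W :=
  Nat.pos_of_ne_zero fun e => not_three_dvd_awayModulus hΔ (e ▸ dvd_zero 3)

lemma two_pow_dvd_awayModulus : (2 : ℤ) ^ 11 ∣ (awayModulus W : ℤ) :=
  ⟨55 * (ordCompl[3] W.Δ.natAbs : ℕ), by simp only [awayModulus]; push_cast; ring⟩

/-- Outside the modulus and 3 the invariants `330` and `Δ` are units. -/
lemma ne_zero_of_not_dvd {p : ℕ} (hp : p.Prime) (hp3 : p ≠ 3)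
    (hpM : ¬ (p : ℤ) ∣ awayModulus W) : (330 : ZMod p) ≠ 0 ∧ (W.Δ : ZMod p) ≠ 0 := by
  have := Fact.mk hp
  rw [Int.natCast_dvd_natCast] at hpM
  refine ⟨fun e => ?_, fun e => ?_⟩
  · have h : p ∣ 330 := (ZMod.natCast_eq_zero_iff 330 p).1 (by exact_mod_cast e)
    rw [show 330 = 2 * 55 * 3 by norm_num] at h
    rcases (Nat.Prime.dvd_mul hp).1 h with h | h
    · exact hpM (h.trans ((mul_dvd_mul_right (dvd_pow_self 2 (by norm_num)) 55).trans
        (dvd_mul_right _ _)))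
    · exact hp3 ((Nat.prime_dvd_prime_iff_eq hp Nat.prime_three).1 h)
  · rw [ZMod.intCast_zmod_eq_zero_iff_dvd, Int.natCast_dvd,
      ← Nat.ordProj_mul_ordCompl_eq_self W.Δ.natAbs 3] at e
    rcases (Nat.Prime.dvd_mul hp).1 e with h | h
    · exact hp3 ((Nat.prime_dvd_prime_iff_eq hp Nat.prime_three).1 (hp.dvd_of_dvd_pow h))
    · exact hpM (h.trans (dvd_mul_left _ _))

lemma not_dvd_lam {M t lam : ℤ} {p : ℕ} (hp : p.Prime) (hpM : (p : ℤ) ∣ M)
    (hlam : M ∣ t * lam - 1) : ¬ (p : ℤ) ∣ lam := fun h =>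
  (Nat.prime_iff_prime_int.1 hp).not_isUnit <| isUnit_of_dvd_one <| by
    simpa using dvd_sub (h.mul_left t) (hpM.trans hlam)

/-- From `t ^ k C ≡ c` to `C ≡ lam ^ k c`. -/
lemma dvd_sub_pow_mul {M t lam C c : ℤ} (k : ℕ) (hlam : M ∣ t * lam - 1)
    (h : M ∣ t ^ k * C - c) : M ∣ C - lam ^ k * c := by
  have h1 : M ∣ (t * lam) ^ k - 1 := by
    simpa using hlam.trans (sub_dvd_pow_sub_pow (t * lam) 1 k)
  have e : C - lam ^ k * c = lam ^ k * (t ^ k * C - c) - C * ((t * lam) ^ k - 1) := by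
    rw [mul_pow]; ring
  rw [e]
  exact dvd_sub (h.mul_left _) (h1.mul_left _)

end FermatAgent.Switch.Chain
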