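import Fermat.Agent.Switch.Chain.LocalForms
import Fermat.Agent.Switch.Chain.Modulus

/-!
# The switch along the twisted `X(5)` with prescribed reduction at 3
-/

set_option autoImplicit false

open WeierstrassCurve

namespace FermatAgent.Switch.Chain

/-- The syzygy along the line. -/
theorem cov_syzygy {a b d : ℚ} (habd : a ^ 3 - b ^ 2 = 1728 * d) (hd : d ≠ 0) (l m : ℚ) :
    ((-17424)⁻¹ * covHess a b d l m) ^ 3 - ((-4181760)⁻¹ * covJac a b d l m) ^ 2 =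
      1728 * d * covD a b d l m ^ 5 := by
  set j := algebraMap ℚ (AlgebraicClosure ℚ)
  obtain ⟨u, v, hH, hT, hF5, hf⟩ := exists_base (a := j a) (b := j b) (d := j d)
    (by norm_num) (by simpa [map_ofNat] using congrArg j habd) ((_root_.map_ne_zero j).2 hd)
  apply j.injective
  simp only [map_sub, map_pow, map_mul, map_inv₀, map_neg, map_ofNat, map_covHess, map_covJac,
    map_covD]
  rw [← hH, ← hT, ← hF5, covHess_eq _ _ _ _ hf, covJac_eq _ _ _ _ hf,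
    inv_mul_cancel_left₀ (by norm_num), inv_mul_cancel_left₀ (by norm_num), klein_syzygy,
    kleinF_line]
  ring

/-- What is needed from the local parameter at 3. -/
def LocalFive (B X : ℤ) : Prop :=
  (¬ (3 : ℤ) ∣ locC B X ∧ ¬ (3 : ℤ) ^ 28 ∣ locD B X) ∨
    ((3 : ℤ) ∣ locC B X ∧ ¬ (3 : ℤ) ∣ locD B X ∧ ¬ (3 : ℤ) ∣ B ∧
      (243 : ℤ) ∣ locC B X ^ 3 + 1728 * B * (1 + 432 * B) * locD B X ^ 5)

lemma covD_line {R : Type*} [CommRing R] (c b d x m : R) :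
    covD (c ^ 2) (c ^ 3 * b) (c ^ 6 * d) (c * x * m) m = c ^ 12 * (m ^ 12 * covD 1 b d x 1) := by
  have h := covD_weight (1 : R) b d c (m * x) (m * 1)
  rw [covD_hom, mul_one, mul_one] at h
  rw [mul_assoc, mul_comm x m, h]

lemma covHess_line {R : Type*} [CommRing R] (c b d x m : R) :
    covHess (c ^ 2) (c ^ 3 * b) (c ^ 6 * d) (c * x * m) m =
      c ^ 22 * (m ^ 20 * covHess 1 b d x 1) := by
  have h := covHess_weight (1 : R) b d c (m * x) (m * 1)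
  rw [covHess_hom, mul_one, mul_one] at h
  rw [mul_assoc, mul_comm x m, h]

/-- The switched curve. -/
theorem exists_switch_five (W : WeierstrassCurve ℤ) (hΔ : W.Δ ≠ 0) (hW : W.IsSemistableModel)
    {c B X : ℤ} (hc : ¬ (3 : ℤ) ∣ c) (ha : (3 : ℤ) ^ 50 ∣ W.c₄ - c ^ 2)
    (hb : (3 : ℤ) ^ 50 ∣ W.c₆ - c ^ 3 * (-1 - 864 * B))
    (hd : (3 : ℤ) ^ 50 ∣ W.Δ - c ^ 6 * (-B - 432 * B ^ 2)) (hX : LocalFive B X) :
    ∃ (W' : WeierstrassCurve ℤ) (δ u u' : ℤ), W'.Δ ≠ 0 ∧ W'.IsSemistableModel ∧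
      AlmostCongr 5 W W' ∧ W'.Δ = W.Δ * δ ^ 5 ∧ ¬ (3 : ℤ) ∣ u ∧ ¬ (3 : ℤ) ∣ u' ∧
      (3 : ℤ) ^ 28 ∣ δ - u * locD B X ∧ (3 : ℤ) ^ 28 ∣ W'.c₄ - u' * locC B X := by
  set M₀ := awayModulus W with hM₀
  have hM₀pos := awayModulus_pos hΔ
  set M : ℕ := 2 ^ 8 * 5 * 11 ^ 2 * M₀ with hMdef
  have hMc : (M : ℤ) = 2 ^ 8 * 5 * 11 ^ 2 * M₀ := by rw [hMdef]; push_cast; ring
  have hM3 : ¬ (3 : ℤ) ∣ M := by
    rw [show (3 : ℤ) = ((3 : ℕ) : ℤ) from rfl, Int.natCast_dvd_natCast]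
    intro h
    rcases (Nat.Prime.dvd_mul Nat.prime_three).1 h with h | h
    · norm_num at h
    · exact not_three_dvd_awayModulus hΔ h
  have hM₀3 : IsCoprime (M₀ : ℤ) 3 := by
    rw [Int.isCoprime_iff_nat_coprime]
    exact ((Nat.Prime.coprime_iff_not_dvd Nat.prime_three).2
      (not_three_dvd_awayModulus hΔ)).symm
  -- the parameter
  obtain ⟨Mi, hMi⟩ := exists_inverse (isCoprime_three_pow hM3 50)
  set n : ℤ := (c * (1 + 12 * X) * M - 1) * Mi with hn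
  set l : ℤ := (M : ℤ) * n + 1 with hl
  have hl' : (3 : ℤ) ^ 50 ∣ l - c * (1 + 12 * X) * M := by
    have : l - c * (1 + 12 * X) * M = (c * (1 + 12 * X) * M - 1) * ((M : ℤ) * Mi - 1) := by
      rw [hl, hn]; ring
    rw [this]; exact hMi.mul_left _
  -- congruences modulo `3 ^ 50`
  have hcast : (((3 ^ 50 : ℕ) : ℤ)) = 3 ^ 50 := Nat.cast_pow 3 50
  rw [← hcast, ← ZMod.intCast_zmod_eq_zero_iff_dvd, Int.cast_sub, sub_eq_zero] at ha hb hd hl'
  push_cast at ha hb hd hl'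
  have hDloc : ((covD W.c₄ W.c₆ W.Δ l (M : ℤ) : ℤ) : (ZMod (3 ^ 50))) =
      ((12 ^ 12 * ((c * M) ^ 12 * locD B X) : ℤ) : (ZMod (3 ^ 50))) := by
    rw [← eq_intCast (Int.castRingHom (ZMod (3 ^ 50))), map_covD]
    simp only [eq_intCast, Int.cast_natCast]
    rw [ha, hb, hd, hl', covD_line, covD_local]
    rw [show locD (B : (ZMod (3 ^ 50))) (X : (ZMod (3 ^ 50))) = ((locD B X : ℤ) : (ZMod (3 ^ 50))) from
      (map_locD B X (Int.castRingHom (ZMod (3 ^ 50)))).symm]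
    push_cast
    ring
  have hCloc : ((covHess W.c₄ W.c₆ W.Δ l (M : ℤ) : ℤ) : (ZMod (3 ^ 50))) =
      ((-17424 * 12 ^ 20 * (c ^ 22 * (M : ℤ) ^ 20 * locC B X) : ℤ) : (ZMod (3 ^ 50))) := by
    rw [← eq_intCast (Int.castRingHom (ZMod (3 ^ 50))), map_covHess]
    simp only [eq_intCast, Int.cast_natCast]
    rw [ha, hb, hd, hl', covHess_line, covHess_local]
    rw [show locC (B : (ZMod (3 ^ 50))) (X : (ZMod (3 ^ 50))) = ((locC B X : ℤ) : (ZMod (3 ^ 50))) from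
      (map_locC B X (Int.castRingHom (ZMod (3 ^ 50)))).symm]
    push_cast
    ring
  rw [← sub_eq_zero, ← Int.cast_sub, ZMod.intCast_zmod_eq_zero_iff_dvd, hcast] at hDloc hCloc
  obtain ⟨kD, hkD⟩ := hDloc
  obtain ⟨kC, hkC⟩ := hCloc
  obtain ⟨δ, hδ⟩ : ∃ δ, covD W.c₄ W.c₆ W.Δ l (M : ℤ) = 3 ^ 12 * δ :=
    ⟨4 ^ 12 * ((c * M) ^ 12 * locD B X) + 3 ^ 38 * kD, by linear_combination hkD⟩
  have hδloc : (3 : ℤ) ^ 28 ∣ δ - (4 * c * M) ^ 12 * locD B X :=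
    ⟨3 ^ 10 * kD, mul_left_cancel₀ (show (3 : ℤ) ^ 12 ≠ 0 by norm_num) (by
      linear_combination hkD - hδ)⟩
  -- `C`
  obtain ⟨e, he⟩ := dvd_covHess_sub W.c₄ W.c₆ W.Δ n (M : ℤ)
  rw [← hl] at he
  obtain ⟨C, hC⟩ : ∃ C, covHess W.c₄ W.c₆ W.Δ l (M : ℤ) = -17424 * (3 ^ 20 * C) := by
    have h3 : (9 * 3 ^ 20 : ℤ) ∣ -(9 * W.c₄) + 2 ^ 4 * 5 * M₀ * e := by
      refine IsCoprime.dvd_of_dvd_mul_left
        (show IsCoprime (9 * 3 ^ 20 : ℤ) (2 ^ 4 * 11 ^ 2) from ?_) ?_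
      · rw [show (9 * 3 ^ 20 : ℤ) = 3 ^ 22 by norm_num]
        exact (isCoprime_three_pow (by norm_num) 22).symm
      · exact ⟨-(2 ^ 4 * 11 ^ 2 * 4 ^ 20) * (c ^ 22 * (M : ℤ) ^ 20 * locC B X) + 3 ^ 28 * kC, by
          linear_combination hkC - he - e * hMc⟩
    obtain ⟨x, hx⟩ := h3
    exact ⟨-x, by linear_combination he + e * hMc + 2 ^ 4 * 11 ^ 2 * hx⟩
  have hCloc' : (3 : ℤ) ^ 28 ∣ C - c ^ 22 * (M : ℤ) ^ 20 * 4 ^ 20 * locC B X := by
    have h : (3 : ℤ) ^ 28 ∣ (-(2 ^ 4 * 11 ^ 2)) * (C - c ^ 22 * (M : ℤ) ^ 20 * 4 ^ 20 * locC B X) :=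
      ⟨kC, mul_left_cancel₀ (show (3 : ℤ) ^ 22 ≠ 0 by norm_num) (by linear_combination hkC - hC)⟩
    exact (isCoprime_three_pow (by norm_num) 28).symm.dvd_of_dvd_mul_left h
  have hC₀ : (M₀ : ℤ) ∣ 3 ^ 20 * C - W.c₄ := by
    refine IsCoprime.dvd_of_dvd_mul_left (show IsCoprime (M₀ : ℤ) (-9) from ?_)
      ⟨2 ^ 4 * 5 * e, mul_left_cancel₀ (show (2 : ℤ) ^ 4 * 11 ^ 2 ≠ 0 by norm_num) (by
        linear_combination he - hC + e * hMc)⟩
    rw [show (-9 : ℤ) = -(3 ^ 2) by norm_num]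
    exact hM₀3.pow_right.neg_right
  -- `S` and the syzygy
  have hrelQ : (W.c₄ : ℚ) ^ 3 - (W.c₆ : ℚ) ^ 2 = 1728 * (W.Δ : ℚ) := by
    exact_mod_cast W.c_relation.symm
  have hid := cov_syzygy hrelQ (Int.cast_ne_zero.2 hΔ) (l : ℚ) ((M : ℤ) : ℚ)
  have e₁ := congrArg (Int.castRingHom ℚ) hC
  have e₂ := congrArg (Int.castRingHom ℚ) hδ
  rw [map_covHess, map_mul] at e₁
  rw [map_covD, map_mul] at e₂
  simp only [eq_intCast, map_neg, map_ofNat, map_mul, map_pow] at e₁ e₂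
  rw [e₁, e₂, inv_mul_cancel_left₀ (by norm_num)] at hid
  obtain ⟨S, hS⟩ : ∃ S : ℤ, (S : ℚ) = (-4181760)⁻¹ *
      covJac (W.c₄ : ℚ) W.c₆ W.Δ l ((M : ℤ) : ℚ) / 3 ^ 30 := by
    refine exists_int_of_sq (n := C ^ 3 - 1728 * W.Δ * δ ^ 5) ?_
    rw [div_pow, div_eq_iff (by norm_num)]
    push_cast
    linear_combination -hid
  have hJac : covJac W.c₄ W.c₆ W.Δ l (M : ℤ) = -4181760 * (3 ^ 30 * S) := by
    have h : (covJac (W.c₄ : ℚ) W.c₆ W.Δ l ((M : ℤ) : ℚ)) = -4181760 * (3 ^ 30 * (S : ℚ)) := by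
      rw [hS, mul_div_cancel₀ _ (by norm_num), mul_inv_cancel_left₀ (by norm_num)]
    have hm := map_covJac (Int.castRingHom ℚ) W.c₄ W.c₆ W.Δ l (M : ℤ)
    simp only [eq_intCast] at hm
    exact_mod_cast hm.trans h
  have hCS : C ^ 3 - S ^ 2 = 1728 * (W.Δ * δ ^ 5) := by
    have : (C : ℚ) ^ 3 - (S : ℚ) ^ 2 = 1728 * ((W.Δ : ℚ) * (δ : ℚ) ^ 5) := by
      rw [hS, div_pow]
      linear_combination hid / 3 ^ 60
    exact_mod_cast this
  have hS₀ : (M₀ : ℤ) ∣ 3 ^ 30 * S - W.c₆ := by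
    obtain ⟨e', he'⟩ := dvd_covJac_sub W.c₄ W.c₆ W.Δ n (M : ℤ)
    rw [← hl] at he'
    refine IsCoprime.dvd_of_dvd_mul_left (show IsCoprime (M₀ : ℤ) (-27) from ?_)
      ⟨e', mul_left_cancel₀ (show (2 : ℤ) ^ 8 * 5 * 11 ^ 2 ≠ 0 by norm_num) (by
        linear_combination he' - hJac + e' * hMc)⟩
    rw [show (-27 : ℤ) = -(3 ^ 3) by norm_num]
    exact hM₀3.pow_right.neg_right
  -- away from 3
  obtain ⟨lam, hlam⟩ := exists_inverse
    (show IsCoprime ((3 : ℤ) ^ 5) (M₀ : ℤ) from hM₀3.symm.pow_left)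
  have h4 : (M₀ : ℤ) ∣ C - lam ^ 4 * W.c₄ := dvd_sub_pow_mul 4 hlam (by
    rwa [show ((3 : ℤ) ^ 5) ^ 4 = 3 ^ 20 by norm_num])
  have h6 : (M₀ : ℤ) ∣ S - lam ^ 6 * W.c₆ := dvd_sub_pow_mul 6 hlam (by
    rwa [show ((3 : ℤ) ^ 5) ^ 6 = 3 ^ 30 by norm_num])
  -- at 3
  set u : ℤ := (4 * c * M) ^ 12 with hu
  set u' : ℤ := c ^ 22 * (M : ℤ) ^ 20 * 4 ^ 20 with hu'
  have hcM : ¬ (3 : ℤ) ∣ c * M := fun h => (Int.prime_three.dvd_or_dvd h).elim hc hM3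
  have hu3 : ¬ (3 : ℤ) ∣ u := fun h => by
    have := Int.prime_three.dvd_of_dvd_pow h
    rw [mul_assoc] at this
    exact (Int.prime_three.dvd_or_dvd this).elim (by norm_num) hcM
  have hu'3 : ¬ (3 : ℤ) ∣ u' := fun h => by
    rcases Int.prime_three.dvd_or_dvd h with h | h
    · rcases Int.prime_three.dvd_or_dvd h with h | h
      · exact hc (Int.prime_three.dvd_of_dvd_pow h)
      · exact hM3 (Int.prime_three.dvd_of_dvd_pow h)
    · exact absurd (Int.prime_three.dvd_of_dvd_pow h) (by norm_num)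
  have hδ0 : δ ≠ 0 := by
    intro e0
    rw [e0, zero_sub, dvd_neg] at hδloc
    have := (isCoprime_three_pow hu3 28).symm.dvd_of_dvd_mul_left hδloc
    rcases hX with ⟨-, h⟩ | ⟨-, h, -, -⟩
    · exact h this
    · exact h ((dvd_pow_self 3 (by norm_num)).trans this)
  have hβ : ∃ β : ℤ, (3 : ℤ) ∣ β ^ 2 - C ∧ (27 : ℤ) ∣ 2 * S - β ^ 3 + 3 * β * C := by
    rcases hX with ⟨hC3, -⟩ | ⟨hC3, hD3, -, h243⟩
    · refine exists_beta hCS fun h => hC3 ?_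
      have : (3 : ℤ) ∣ u' * locC B X := by
        simpa using dvd_sub h ((dvd_pow_self 3 (by norm_num)).trans hCloc')
      exact (Int.prime_three.dvd_or_dvd this).resolve_left hu'3
    · have hC' : (3 : ℤ) ∣ C := by
        simpa using dvd_add ((dvd_pow_self 3 (show 28 ≠ 0 by norm_num)).trans hCloc')
          (hC3.mul_left u')
      have h5 : ((243 : ℕ) : ℤ) ∣ S ^ 2 := by
        rw [← ZMod.intCast_zmod_eq_zero_iff_dvd]
        have r₁ := (pow_dvd_pow (3 : ℤ) (show 5 ≤ 28 by norm_num)).trans hCloc'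
        have r₂ := (pow_dvd_pow (3 : ℤ) (show 5 ≤ 28 by norm_num)).trans hδloc
        have r₃ : (3 : ℤ) ^ 5 ∣ W.Δ - c ^ 6 * (-B - 432 * B ^ 2) :=
          (pow_dvd_pow (3 : ℤ) (show 5 ≤ 50 by norm_num)).trans (by
            rw [← hcast, ← ZMod.intCast_zmod_eq_zero_iff_dvd]; push_cast
            rw [hd, sub_self])
        have hr : (((243 : ℕ) : ℤ)) = 3 ^ 5 := by norm_num
        rw [← hr, ← ZMod.intCast_zmod_eq_zero_iff_dvd, Int.cast_sub, sub_eq_zero] at r₁ r₂ r₃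
        rw [← Nat.cast_ofNat, ← ZMod.intCast_zmod_eq_zero_iff_dvd] at h243
        rw [show S ^ 2 = C ^ 3 - 1728 * (W.Δ * δ ^ 5) by linear_combination -hCS]
        push_cast at r₁ r₂ r₃ h243 ⊢
        rw [r₁, r₂, r₃]
        simp only [hu, hu']
        push_cast
        linear_combination ((c : ZMod 243) ^ 66 * (M : ZMod 243) ^ 60 * 4 ^ 60) * h243
      refine ⟨0, by simpa using hC', ?_⟩
      obtain ⟨x, rfl⟩ : (3 : ℤ) ∣ S :=
        Int.prime_three.dvd_of_dvd_pow ((show (3 : ℤ) ∣ ((243 : ℕ) : ℤ) by norm_num).trans h5)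
      obtain ⟨y, rfl⟩ : (3 : ℤ) ∣ x := by
        refine Int.prime_three.dvd_of_dvd_pow (n := 2) ?_
        obtain ⟨z, hz⟩ := h5
        exact ⟨9 * z, by push_cast at hz; linarith⟩
      obtain ⟨w, rfl⟩ : (3 : ℤ) ∣ y := by
        refine Int.prime_three.dvd_of_dvd_pow (n := 2) ?_
        obtain ⟨z, hz⟩ := h5
        exact ⟨z, by push_cast at hz; linarith⟩
      exact ⟨2 * w, by ring⟩
  obtain ⟨β, hβ1, hβ2⟩ := hβ
  obtain ⟨W', hW4, hW6, hWΔ⟩ := exists_model W hCS (two_pow_dvd_awayModulus.trans h4)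
    (two_pow_dvd_awayModulus.trans h6) hβ1 hβ2
  have hΔ' : W'.Δ ≠ 0 := hWΔ ▸ mul_ne_zero hΔ (pow_ne_zero 5 hδ0)
  refine ⟨W', δ, u, u', hΔ', fun p hp hpΔ => ?_, ?_, hWΔ, hu3, hu'3, hδloc, hW4 ▸ hCloc'⟩
  · rcases eq_or_ne p 3 with rfl | hp3
    · intro h4'
      rw [hW4] at h4'
      rw [hWΔ] at hpΔ
      push_cast at hpΔ h4'
      have h3C : (3 : ℤ) ∣ u' * locC B X := by
        simpa using dvd_sub h4' ((dvd_pow_self 3 (show 28 ≠ 0 by norm_num)).trans hCloc')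
      rcases hX with ⟨hC3, -⟩ | ⟨-, hD3, hB3, -⟩
      · exact hC3 ((Int.prime_three.dvd_or_dvd h3C).resolve_left hu'3)
      · rcases Int.prime_three.dvd_or_dvd hpΔ with h | h
        · refine hB3 ?_
          have h' : (3 : ℤ) ∣ W.Δ - c ^ 6 * (-B - 432 * B ^ 2) :=
            (dvd_pow_self 3 (show 50 ≠ 0 by norm_num)).trans (by
              rw [← hcast, ← ZMod.intCast_zmod_eq_zero_iff_dvd]; push_cast
              rw [hd, sub_self])
          have h'' : (3 : ℤ) ∣ c ^ 6 * (B * (1 + 432 * B)) := by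
            have := dvd_sub h h'
            rw [sub_sub_cancel] at this
            rw [← dvd_neg]
            convert this using 1; ring
          rcases Int.prime_three.dvd_or_dvd h'' with h | h
          · exact absurd (Int.prime_three.dvd_of_dvd_pow h) hc
          · exact (Int.prime_three.dvd_or_dvd h).resolve_right fun h1 =>
              absurd ((dvd_add_left (⟨144 * B, by ring⟩ : (3 : ℤ) ∣ 432 * B)).1 h1) (by norm_num)
        · refine hD3 ((Int.prime_three.dvd_or_dvd ?_).resolve_left hu3)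
          simpa using dvd_sub (Int.prime_three.dvd_of_dvd_pow h)
            ((dvd_pow_self 3 (show 28 ≠ 0 by norm_num)).trans hδloc)
    by_cases hpM : (p : ℤ) ∣ M₀
    · exact not_dvd_c₄_of_congr hW hp hp3 hpM two_pow_dvd_awayModulus (not_dvd_lam hp hpM hlam)
        (hW4 ▸ h4) (hW6 ▸ h6) hpΔ
    intro h4'
    have := Fact.mk hp
    obtain ⟨h330, hΔp⟩ := ne_zero_of_not_dvd hp hp3 hpM
    set φ := Int.castRingHom (ZMod p)
    rw [hW4, ← ZMod.intCast_zmod_eq_zero_iff_dvd] at h4'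
    rw [hWΔ, ← ZMod.intCast_zmod_eq_zero_iff_dvd] at hpΔ
    have hS0 : φ S = 0 := by
      have := congrArg φ hCS
      rw [map_sub, map_pow, map_pow, show φ C = 0 from h4', map_mul _ (1728 : ℤ),
        show φ (W.Δ * δ ^ 5) = 0 from hpΔ, mul_zero, zero_pow three_ne_zero, zero_sub,
        neg_eq_zero] at this
      exact eq_zero_of_pow_eq_zero this
    refine not_both_zero h330 (a := φ W.c₄) (b := φ W.c₆) (d := φ W.Δ) (l := φ l)
      (m := φ (M : ℤ)) (C₄ := φ (3 ^ 20 * C)) (C₆ := φ (3 ^ 30 * S)) ?_ hΔp ?_ ?_ ?_ ?_ ?_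
    · simpa [map_ofNat] using (congrArg φ W.c_relation).symm
    · rw [map_natCast, hMdef]
      push_cast
      rw [show (154880 : ZMod p) = 2 ^ 8 * 5 * 11 ^ 2 by norm_num]
      obtain ⟨h2, -, h5, h11⟩ := ne_zero_small h330
      refine mul_ne_zero (mul_ne_zero (mul_ne_zero (pow_ne_zero _ h2) h5) (pow_ne_zero _ h11))
        fun e => hpM ?_
      exact_mod_cast (ZMod.natCast_eq_zero_iff _ _).1 e
    · rw [← map_covHess, hC, map_mul φ (-17424 : ℤ)]; simp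
    · rw [← map_covJac, hJac, map_mul φ (-4181760 : ℤ)]; simp
    · rw [map_mul, show φ C = 0 from h4', mul_zero]
    · rw [map_mul, hS0, mul_zero]
  · refine almostCongr_of_trace (330 * M).primeFactors (t := 3 ^ 5) (C := 3 ^ 20 * C)
      (S := 3 ^ 30 * S) (by rw [hW4]; ring) (by rw [hW6]; ring) fun ℓ _ hℓB hD' hDW => ?_
    have hℓ : ℓ.Prime := Fact.out
    rw [Nat.mem_primeFactors] at hℓB
    have h330' : ¬ ℓ ∣ 330 := fun h => hℓB ⟨hℓ, h.mul_right _, by positivity⟩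
    have h330 : (330 : ZMod ℓ) ≠ 0 := fun e =>
      h330' ((ZMod.natCast_eq_zero_iff 330 ℓ).1 (by exact_mod_cast e))
    obtain ⟨h2, h3, -, -⟩ := ne_zero_small h330
    refine ⟨h2, h3, by rw [Int.cast_pow, Int.cast_ofNat]; exact pow_ne_zero 5 h3, ?_⟩
    set φ := Int.castRingHom (ZMod ℓ)
    refine trace_congr h330 (d := φ W.Δ) (l := φ l) (m := φ (M : ℤ)) ?_ hDW ?_ ?_ ?_
    · simpa [map_ofNat] using (congrArg φ W.c_relation).symm
    · show -17424 * φ (3 ^ 20 * C) = covHess (φ W.c₄) (φ W.c₆) (φ W.Δ) (φ l) (φ (M : ℤ))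
      rw [← map_covHess, hC, map_mul φ (-17424 : ℤ)]; simp
    · show -4181760 * φ (3 ^ 30 * S) = covJac (φ W.c₄) (φ W.c₆) (φ W.Δ) (φ l) (φ (M : ℤ))
      rw [← map_covJac, hJac, map_mul φ (-4181760 : ℤ)]; simp
    · show (φ (3 ^ 20 * C)) ^ 3 - (φ (3 ^ 30 * S)) ^ 2 ≠ 0
      rw [← map_pow, ← map_pow, ← map_sub,
        show (3 ^ 20 * C) ^ 3 - (3 ^ 30 * S) ^ 2 = 3 ^ 60 * (1728 * W'.Δ) by
          rw [hWΔ]; linear_combination 3 ^ 60 * hCS, map_mul, map_mul, map_pow, map_ofNat,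
        map_ofNat, show (1728 : ZMod ℓ) = 2 ^ 6 * 3 ^ 3 by norm_num]
      exact mul_ne_zero (pow_ne_zero _ h3)
        (mul_ne_zero (mul_ne_zero (pow_ne_zero _ h2) (pow_ne_zero _ h3)) hD')

end FermatAgent.Switch.Chain
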