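import Fermat.Agent.Switch.Chain.Five
import Fermat.Agent.Switch.Chain.Interface

/-!
# The two switches along the twisted `X(5)`
-/

set_option autoImplicit false

open WeierstrassCurve

namespace FermatAgent.Switch.Chain

private lemma ss_check : ∀ i : Fin 81,
    81 * locC (1 + 3 * (i.val : ZMod 243)) 2 = 0 ∧ 81 * locD (1 + 3 * (i.val : ZMod 243)) 2 ≠ 0 ∧
      locC (1 + 3 * (i.val : ZMod 243)) 2 ^ 3 + 1728 * (1 + 3 * (i.val : ZMod 243))
        * (1 + 432 * (1 + 3 * (i.val : ZMod 243))) * locD (1 + 3 * (i.val : ZMod 243)) 2 ^ 5 = 0 := by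
  decide +kernel

private lemma flat_check : ∀ i : Fin 9,
    (∃ j : Fin 27, 9 * locC (3 * (i.val : ZMod 27)) (j.val : ZMod 27) ≠ 0 ∧
      9 * locD (3 * (i.val : ZMod 27)) (j.val : ZMod 27) = 0 ∧
      3 * locD (3 * (i.val : ZMod 27)) (j.val : ZMod 27) ≠ 0) ∧
    (∃ j : Fin 27, 9 * locC (3 * (i.val : ZMod 27)) (j.val : ZMod 27) ≠ 0 ∧
      3 * locD (3 * (i.val : ZMod 27)) (j.val : ZMod 27) = 0 ∧
      locD (3 * (i.val : ZMod 27)) (j.val : ZMod 27) ≠ 0) := by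
  decide +kernel

/-- The local parameter of the supersingular switch. -/
lemma localFive_ss {B : ℤ} (hB : (3 : ℤ) ∣ B - 1) :
    (3 : ℤ) ∣ locC B 2 ∧ ¬ (3 : ℤ) ∣ locD B 2 ∧
      (243 : ℤ) ∣ locC B 2 ^ 3 + 1728 * B * (1 + 432 * B) * locD B 2 ^ 5 := by
  obtain ⟨k, hk⟩ := hB
  have hi : ((B : ℤ) : ZMod 243) = 1 + 3 * ((((k % 81).toNat : ℕ)) : ZMod 243) := by
    have e : B = 1 + 3 * ((k % 81).toNat : ℤ) + 243 * (k / 81) := by omega
    rw [e]; push_cast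
    rw [show (243 : ZMod 243) = 0 from rfl, zero_mul, add_zero]
  obtain ⟨h1, h2, h3⟩ := ss_check ⟨(k % 81).toNat, by omega⟩
  simp only [← hi] at h1 h2 h3
  have e : ((2 : ℤ) : ZMod 243) = 2 := rfl
  rw [← e, ← eq_intCast (Int.castRingHom (ZMod 243)) B,
    ← eq_intCast (Int.castRingHom (ZMod 243)) 2] at h1 h2 h3
  rw [← map_locC] at h1
  rw [← map_locD] at h2
  rw [← map_locC, ← map_locD] at h3
  simp only [eq_intCast] at h1 h2 h3
  refine ⟨?_, fun h => h2 ?_, ?_⟩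
  · have h' : ((81 * locC B 2 : ℤ) : ZMod 243) = 0 := by rw [Int.cast_mul]; exact h1
    rw [ZMod.intCast_zmod_eq_zero_iff_dvd] at h'
    push_cast at h'
    omega
  · obtain ⟨r, hr⟩ := h
    rw [hr]; push_cast
    rw [← mul_assoc, show (81 : ZMod 243) * 3 = 0 from rfl, zero_mul]
  · refine (ZMod.intCast_zmod_eq_zero_iff_dvd _ 243).1 ?_
    push_cast
    exact h3

/-- The local parameter of the flat switch. -/
lemma localFive_flat {B : ℤ} (hB : (3 : ℤ) ∣ B) {e : ℕ} (he : e = 1 ∨ e = 2) :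
    ∃ X : ℤ, ¬ (3 : ℤ) ∣ locC B X ∧ (3 : ℤ) ^ e ∣ locD B X ∧ ¬ (3 : ℤ) ^ (e + 1) ∣ locD B X := by
  obtain ⟨k, hk⟩ := hB
  have hi : ((B : ℤ) : ZMod 27) = 3 * ((((k % 9).toNat : ℕ)) : ZMod 27) := by
    have e : B = 3 * ((k % 9).toNat : ℤ) + 27 * (k / 9) := by omega
    rw [e]; push_cast
    rw [show (27 : ZMod 27) = 0 from rfl, zero_mul, add_zero]
  obtain ⟨⟨j₁, a₁, b₁, c₁⟩, ⟨j₂, a₂, b₂, c₂⟩⟩ := flat_check ⟨(k % 9).toNat, by omega⟩
  simp only [← hi, ← Int.cast_natCast (R := ZMod 27) j₁.val] at a₁ b₁ c₁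
  simp only [← hi, ← Int.cast_natCast (R := ZMod 27) j₂.val] at a₂ b₂ c₂
  have hC : ∀ X : ℤ, 9 * locC (B : ZMod 27) (X : ZMod 27) ≠ 0 → ¬ (3 : ℤ) ∣ locC B X := by
    intro X h h'
    apply h
    rw [show locC (B : ZMod 27) (X : ZMod 27) = ((locC B X : ℤ) : ZMod 27) from
      (map_locC B X (Int.castRingHom (ZMod 27))).symm]
    obtain ⟨r, hr⟩ := h'
    rw [hr]; push_cast
    rw [← mul_assoc, show (9 : ZMod 27) * 3 = 0 from rfl, zero_mul]
  have hD : ∀ X n : ℤ, (n : ZMod 27) * locD (B : ZMod 27) (X : ZMod 27) = 0 ↔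
      (27 : ℤ) ∣ n * locD B X := by
    intro X n
    rw [show locD (B : ZMod 27) (X : ZMod 27) = ((locD B X : ℤ) : ZMod 27) from
      (map_locD B X (Int.castRingHom (ZMod 27))).symm, ← Int.cast_mul,
      ZMod.intCast_zmod_eq_zero_iff_dvd]
    rfl
  rcases he with rfl | rfl
  · refine ⟨_, hC _ a₁, ?_, fun h => c₁ ((hD _ 3).2 ?_)⟩
    · have := (hD _ 9).1 b₁
      norm_num
      omega
    · norm_num at h
      omega
  · refine ⟨_, hC _ a₂, ?_, fun h => c₂ ?_⟩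
    · have := (hD _ 3).1 b₂
      norm_num
      omega
    · have := (hD j₂.val 1).2 (by norm_num at h ⊢; exact h)
      simpa using this

/-- `B` modulo 3 from the normal form. -/
lemma normal_mod_three {D c B : ℤ} (hc : ¬ (3 : ℤ) ∣ c)
    (hd : (3 : ℤ) ^ 50 ∣ D - c ^ 6 * (-B - 432 * B ^ 2)) : (3 : ℤ) ∣ D + B := by
  have h := (ZMod.intCast_zmod_eq_zero_iff_dvd _ 3).2
    ((dvd_pow_self 3 (show 50 ≠ 0 by norm_num)).trans hd)
  refine (ZMod.intCast_zmod_eq_zero_iff_dvd _ 3).1 ?_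
  push_cast at h ⊢
  have hc' : (c : ZMod 3) ≠ 0 := fun e => hc ((ZMod.intCast_zmod_eq_zero_iff_dvd _ _).1 e)
  rw [show (c : ZMod 3) ^ 6 = 1 from (by decide : ∀ z : ZMod 3, z ≠ 0 → z ^ 6 = 1) _ hc',
    show (432 : ZMod 3) = 0 from rfl] at h
  linear_combination h

theorem switchSupersingular : SwitchSupersingular := by
  intro W hΔ hW hA
  obtain ⟨c, B, hc, ha, hb, hd⟩ := exists_normal W hA.1 50
  have hB : (3 : ℤ) ∣ B - 1 := by
    have h1 := normal_mod_three hc hd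
    have h2 := hA.2
    omega
  obtain ⟨h3C, h3D, h243⟩ := localFive_ss hB
  obtain ⟨W', δ, u, u', hΔ', hW', hcong, hD', hu, -, hδ, hC'⟩ :=
    exists_switch_five W hΔ hW hc ha hb hd (X := 2) (Or.inr ⟨h3C, h3D, by omega, h243⟩)
  refine ⟨W', hΔ', hW', ⟨fun h => ?_, ?_⟩, hcong⟩
  · rw [hD'] at h
    rcases Int.prime_three.dvd_or_dvd h with h | h
    · have := hA.2
      omega
    · have hδ3 := dvd_sub (Int.prime_three.dvd_of_dvd_pow h)
        ((dvd_pow_self 3 (show 28 ≠ 0 by norm_num)).trans hδ)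
      rw [sub_sub_cancel] at hδ3
      exact (Int.prime_three.dvd_or_dvd hδ3).elim hu h3D
  · simpa using dvd_add ((dvd_pow_self 3 (show 28 ≠ 0 by norm_num)).trans hC') (h3C.mul_left u')

/-- A flat semistable curve congruent to `W` modulo 5. -/
lemma exists_flat_base (W : WeierstrassCurve ℤ) (hΔ : W.Δ ≠ 0) (hW : W.IsSemistableModel) :
    ∃ W' : WeierstrassCurve ℤ, W'.Δ ≠ 0 ∧ W'.IsSemistableModel ∧ FlatThree W' ∧
      AlmostCongr 5 W W' := by
  have : Fact (Nat.Prime 3) := ⟨Nat.prime_three⟩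
  by_cases hflat : FlatThree W
  · exact ⟨W, hΔ, hW, hflat, AlmostCongr.refl 5 W⟩
  unfold FlatThree at hflat
  have h3Δ : (3 : ℤ) ∣ W.Δ := by
    by_contra h
    rw [padicValInt.eq_zero_of_not_dvd (by exact_mod_cast h)] at hflat
    exact hflat (dvd_zero 3)
  have hc₄ : ¬ (3 : ℤ) ∣ W.c₄ := by exact_mod_cast hW 3 Nat.prime_three (by exact_mod_cast h3Δ)
  obtain ⟨c, B, hc, ha, hb, hd⟩ := exists_normal W hc₄ 50
  have hB : (3 : ℤ) ∣ B := by
    have := normal_mod_three hc hd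
    omega
  set e : ℕ := padicValInt 3 W.Δ % 3 with he
  have he12 : e = 1 ∨ e = 2 := by omega
  obtain ⟨X, hXC, hXD, hXD'⟩ := localFive_flat hB he12
  have h28 : e + 1 ≤ 28 := by omega
  obtain ⟨W', δ, u, u', hΔ', hW', hcong, hD', hu, -, hδ, -⟩ :=
    exists_switch_five W hΔ hW hc ha hb hd (X := X)
      (Or.inl ⟨hXC, fun h => hXD' ((pow_dvd_pow 3 h28).trans h)⟩)
  refine ⟨W', hΔ', hW', ?_, hcong⟩
  have hδe : padicValInt 3 δ = e := by
    have h1 : (3 : ℤ) ^ e ∣ δ := by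
      simpa using dvd_add (((pow_dvd_pow 3 (by omega : e ≤ 28))).trans hδ) (hXD.mul_left u)
    have h2 : ¬ (3 : ℤ) ^ (e + 1) ∣ δ := fun h => by
      have := dvd_sub h ((pow_dvd_pow 3 h28).trans hδ)
      rw [sub_sub_cancel] at this
      exact hXD' ((isCoprime_three_pow hu _).symm.dvd_of_dvd_mul_left this)
    obtain ⟨r, rfl⟩ := h1
    have hr : ¬ (3 : ℤ) ∣ r := fun h => h2 (by rw [pow_succ]; exact mul_dvd_mul_left _ h)
    rw [padicValInt.mul (by positivity) (by rintro rfl; exact hr (dvd_zero 3)),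
      padicValInt.eq_zero_of_not_dvd (z := r) (by exact_mod_cast hr)]
    simp [padicValInt]
  have hδ0 : δ ≠ 0 := fun h => hΔ' (by rw [hD', h]; ring)
  unfold FlatThree
  rw [hD', show δ ^ 5 = δ * δ * δ * δ * δ by ring,
    padicValInt.mul hΔ (by positivity), padicValInt.mul (by positivity) hδ0,
    padicValInt.mul (by positivity) hδ0, padicValInt.mul (by positivity) hδ0,
    padicValInt.mul hδ0 hδ0, hδe]
  omega

theorem switchFlat : SwitchFlat := by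
  intro W hΔ hW
  have : Fact (Nat.Prime 3) := ⟨Nat.prime_three⟩
  obtain ⟨E, hΔE, hWE, hflat, hcong⟩ := exists_flat_base W hΔ hW
  by_cases h3 : E.ModRepIsIrreducible 3
  · exact ⟨E, hΔE, hWE, h3, hflat, hcong⟩
  set v := padicValInt 3 E.Δ with hv
  obtain ⟨W', hΔ', hW', hirr, hmap, hc5⟩ :=
    exists_switch E hΔE hWE h3 (3 ^ (v + 1)) (by positivity)
  refine ⟨W', hΔ', hW', hirr, ?_, hcong.trans hΔE
    ⟨{5}, fun ℓ hℓ hℓB hg hg' => hc5 ℓ hℓ hg hg' (by simpa using hℓB)⟩⟩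
  have hdiff : (3 : ℤ) ^ (v + 1) ∣ W'.Δ - E.Δ := by
    have h := congrArg WeierstrassCurve.Δ hmap
    simp only [WeierstrassCurve.map_Δ, eq_intCast] at h
    rw [← sub_eq_zero, ← Int.cast_sub, ZMod.intCast_zmod_eq_zero_iff_dvd] at h
    exact_mod_cast h
  have key : padicValInt 3 W'.Δ = v := by
    have h1 : (3 : ℤ) ^ v ∣ W'.Δ := by
      have hE : (3 : ℤ) ^ v ∣ E.Δ := padicValInt_dvd E.Δ
      simpa using dvd_add ((pow_dvd_pow 3 (Nat.le_succ v)).trans hdiff) hE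
    have h2 : ¬ (3 : ℤ) ^ (v + 1) ∣ W'.Δ := fun h => by
      have hE : (3 : ℤ) ^ (v + 1) ∣ E.Δ := by simpa using dvd_sub h hdiff
      have := (padicValInt_dvd_iff (p := 3) (v + 1) E.Δ).1 hE
      rcases this with h0 | h0
      · exact hΔE h0
      · omega
    have hle := ((padicValInt_dvd_iff (p := 3) v W'.Δ).1 h1).resolve_left hΔ'
    have hge : ¬ v + 1 ≤ padicValInt 3 W'.Δ := fun h =>
      h2 ((padicValInt_dvd_iff (p := 3) (v + 1) W'.Δ).2 (Or.inr h))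
    omega
  unfold FlatThree at hflat ⊢
  rw [key]
  exact hflat

end FermatAgent.Switch.Chain
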