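import Fermat.Agent.Switch.LinePolys

/-!
# The covariants of the twisted `X(5)` in the coordinate `l = 1 + 12 X` (normalised `c₄ = 1`)

With `c₆ = -1 - 864 B` and `Δ = -B - 432 B²` they are `12¹²` and `-17424 * 12²⁰` times polynomials
with integral coefficients, which are useful modulo powers of 3.
-/

set_option autoImplicit false
set_option maxRecDepth 4000

namespace FermatAgent.Switch.Chain

variable {R : Type*} [CommRing R] (B X : R)

/-- `covD` in the local coordinate. -/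
def locD : R :=
  1 * X ^ 12 + 1 * X ^ 11
  + B * (220 * X ^ 9 + 165 * X ^ 8 + 66 * X ^ 7 + 11 * X ^ 6)
  + B ^ 2 * (-2640 * X ^ 6 - 1320 * X ^ 5 - 165 * X ^ 4 - 55 * X ^ 3 - 11 * X ^ 2 - 1 * X)
  + B ^ 3 * (-17600 * X ^ 3 - 4400 * X ^ 2 - 420 * X + 15)
  + B ^ 4 * (6400)

/-- `covHess` in the local coordinate. -/
def locC : R :=
  1 * X ^ 20
  + B * (-1440 * X ^ 19 - 2280 * X ^ 18 - 2280 * X ^ 17 - 1140 * X ^ 16 - 228 * X ^ 15)
  + B ^ 2 * (205200 * X ^ 16 + 273600 * X ^ 15 + 155040 * X ^ 14 + 59280 * X ^ 13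
     + 22230 * X ^ 12 + 4940 * X ^ 11 + 494 * X ^ 10)
  + B ^ 3 * (3283200 * X ^ 13 + 3556800 * X ^ 12 + 790400 * X ^ 11 + 296400 * X ^ 10
     + 237120 * X ^ 9 + 103740 * X ^ 8 + 23940 * X ^ 7 + 3420 * X ^ 6 + 228 * X ^ 5)
  + B ^ 4 * (142272000 * X ^ 10 + 118560000 * X ^ 9 + 46831200 * X ^ 8 + 9940800 * X ^ 7
     + 1140000 * X ^ 6 - 22800 * X ^ 5 - 12255 * X ^ 4 + 1140 * X ^ 3 + 190 * X ^ 2 + 20 * X
     + 1)
  + B ^ 5 * (-262656000 * X ^ 7 - 153216000 * X ^ 6 - 52896000 * X ^ 5 - 2280000 * X ^ 4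
     + 1504800 * X ^ 3 + 186200 * X ^ 2 + 21800 * X + 1200)
  + B ^ 6 * (1313280000 * X ^ 4 + 437760000 * X ^ 3 + 44992000 * X ^ 2 + 7392000 * X + 474000)
  + B ^ 7 * (737280000 * X + 61440000)

lemma map_locD {S : Type*} [CommRing S] (g : R →+* S) : g (locD B X) = locD (g B) (g X) := by
  simp [locD, map_ofNat]

lemma map_locC {S : Type*} [CommRing S] (g : R →+* S) : g (locC B X) = locC (g B) (g X) := by
  simp [locC, map_ofNat]

theorem covD_local :
    covD 1 (-1 - 864 * B) (-B - 432 * B ^ 2) (1 + 12 * X) 1 = 12 ^ 12 * locD B X := by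
  simp only [covD, locD]; ring

theorem covHess_local :
    covHess 1 (-1 - 864 * B) (-B - 432 * B ^ 2) (1 + 12 * X) 1 =
      -17424 * 12 ^ 20 * locC B X := by
  simp only [covHess, covDll, covDlm, covDmm, locC]; ring

variable (a b d c l m : R)

theorem covD_weight :
    covD (c ^ 2 * a) (c ^ 3 * b) (c ^ 6 * d) (c * l) m = c ^ 12 * covD a b d l m := by
  simp only [covD]; ring

theorem covHess_weight :
    covHess (c ^ 2 * a) (c ^ 3 * b) (c ^ 6 * d) (c * l) m = c ^ 22 * covHess a b d l m := by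
  have h1 : covDll (c ^ 2 * a) (c ^ 3 * b) (c ^ 6 * d) (c * l) m =
      c ^ 10 * covDll a b d l m := by simp only [covDll]; ring
  have h2 : covDlm (c ^ 2 * a) (c ^ 3 * b) (c ^ 6 * d) (c * l) m =
      c ^ 11 * covDlm a b d l m := by simp only [covDlm]; ring
  have h3 : covDmm (c ^ 2 * a) (c ^ 3 * b) (c ^ 6 * d) (c * l) m =
      c ^ 12 * covDmm a b d l m := by simp only [covDmm]; ring
  simp only [covHess, h1, h2, h3]; ring

theorem covD_hom : covD a b d (c * l) (c * m) = c ^ 12 * covD a b d l m := by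
  simp only [covD]; ring

end FermatAgent.Switch.Chain
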