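import Fermat.Agent.Switch.Model
import Fermat.Agent.Switch.Chain.Congr

/-!
# Integral models with prescribed `c₄`, `c₆`, and small arithmetic lemmas for the switches
-/

set_option autoImplicit false

open WeierstrassCurve

namespace FermatAgent.Switch.Chain

/-- A rational number with integral square is integral. -/
lemma exists_int_of_sq {x : ℚ} {n : ℤ} (h : x ^ 2 = n) : ∃ s : ℤ, (s : ℚ) = x := by
  have hint : IsIntegral ℤ x := by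
    refine ⟨Polynomial.X ^ 2 - Polynomial.C n, by monicity!, ?_⟩
    rw [← Polynomial.eval_map]
    simp [h]
  obtain ⟨s, hs⟩ := IsIntegrallyClosed.isIntegral_iff.1 hint
  exact ⟨s, by simpa using hs⟩

/-- Square roots modulo powers of `3`. -/
lemma exists_sqrt_three_pow {a : ℤ} (ha : (3 : ℤ) ∣ a - 1) (σ : ℤ) (hσ : σ = 1 ∨ σ = -1) (n : ℕ) :
    ∃ c : ℤ, (3 : ℤ) ∣ c - σ ∧ (3 : ℤ) ^ (n + 1) ∣ c ^ 2 - a := by
  induction n with
  | zero =>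
    refine ⟨σ, by simp, ?_⟩
    rw [pow_one]
    rcases hσ with rfl | rfl <;> omega
  | succ n ih =>
    obtain ⟨c, hc, q, hq⟩ := ih
    refine ⟨c + 3 ^ (n + 1) * (-2 * c * q), ?_, ?_⟩
    · have h3 : (3 : ℤ) ∣ 3 ^ (n + 1) * (-2 * c * q) :=
        (dvd_pow_self 3 n.succ_ne_zero).mul_right _
      have := dvd_add hc h3
      rwa [sub_add_eq_add_sub] at this
    · obtain ⟨r, hr⟩ := hc
      have hc2 : ∃ t, c ^ 2 = 1 + 3 * t := by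
        rcases hσ with rfl | rfl
        · exact ⟨3 * r ^ 2 + 2 * r, by rw [show c = 1 + 3 * r by omega]; ring⟩
        · exact ⟨3 * r ^ 2 - 2 * r, by rw [show c = -1 + 3 * r by omega]; ring⟩
      obtain ⟨t, ht⟩ := hc2
      refine ⟨-q - 4 * t * q + 3 ^ n * (-2 * c * q) ^ 2, ?_⟩
      linear_combination hq - 4 * 3 ^ (n + 1) * q * ht

/-- The integers `C`, `S` are the invariants of an integral model congruent to a twist of `W` away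
from `3`. -/
theorem exists_model (W : WeierstrassCurve ℤ) {C S D lam β : ℤ} (hrel : C ^ 3 - S ^ 2 = 1728 * D)
    (h4 : (2 : ℤ) ^ 11 ∣ C - lam ^ 4 * W.c₄) (h6 : (2 : ℤ) ^ 11 ∣ S - lam ^ 6 * W.c₆)
    (hβ : (3 : ℤ) ∣ β ^ 2 - C) (hβ' : (27 : ℤ) ∣ 2 * S - β ^ 3 + 3 * β * C) :
    ∃ W' : WeierstrassCurve ℤ, W'.c₄ = C ∧ W'.c₆ = S ∧ W'.Δ = D := by
  set a₁ := lam * W.a₁
  set a₃ := lam ^ 3 * W.a₃
  set a₂ := lam ^ 2 * W.a₂ + 2 ^ 11 * (5 * (β - lam ^ 2 * W.b₂))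
  set b := a₁ ^ 2 + 4 * a₂ with hb
  obtain ⟨q, hq⟩ : (2 : ℤ) ^ 11 ∣ b - lam ^ 2 * W.b₂ :=
    ⟨20 * (β - lam ^ 2 * W.b₂), by simp only [hb, a₁, a₂, WeierstrassCurve.b₂]; ring⟩
  obtain ⟨r, hr⟩ : (27 : ℤ) ∣ b - β :=
    ⟨1517 * (β - lam ^ 2 * W.b₂), by simp only [hb, a₁, a₂, WeierstrassCurve.b₂]; ring⟩
  obtain ⟨e₄, he₄⟩ := h4
  obtain ⟨e₆, he₆⟩ := h6
  obtain ⟨g, hg⟩ := hβ
  obtain ⟨g', hg'⟩ := hβ'
  have h48 : (48 : ℤ) ∣ b ^ 2 - C - 24 * a₁ * a₃ := by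
    refine (show IsCoprime (16 : ℤ) 3 from ⟨1, -5, by norm_num⟩).mul_dvd ?_ ?_
    · refine ⟨3 * lam ^ 4 * W.a₄ + 128 * q * (b + lam ^ 2 * W.b₂) - 128 * e₄, ?_⟩
      have hc : W.c₄ = W.b₂ ^ 2 - 24 * (2 * W.a₄ + W.a₁ * W.a₃) := rfl
      simp only [a₁, a₃]
      linear_combination (b + lam ^ 2 * W.b₂) * hq - he₄ - lam ^ 4 * hc
    · refine ⟨g + 9 * r * (b + β) - 8 * a₁ * a₃, ?_⟩
      linear_combination (b + β) * hr + hg
  obtain ⟨a₄, ha₄⟩ := h48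
  set b₄ := 2 * a₄ + a₁ * a₃ with hb₄
  have hb₄' : 24 * b₄ = b ^ 2 - C := by simp only [b₄]; linear_combination -ha₄
  have h864 : (864 : ℤ) ∣ -b ^ 3 + 36 * b * b₄ - S - 216 * a₃ ^ 2 := by
    refine (show IsCoprime (32 : ℤ) 27 from ⟨11, -13, by norm_num⟩).mul_dvd ?_ ?_
    · -- `b₄ ≡ lam⁴ W.b₄` modulo `8`
      obtain ⟨q₄, hq₄⟩ : (8 : ℤ) ∣ b₄ - lam ^ 4 * W.b₄ := by
        have h : 24 * (b₄ - lam ^ 4 * W.b₄) =
            2 ^ 11 * (q * (b + lam ^ 2 * W.b₂) - e₄) := by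
          have hc : W.c₄ = W.b₂ ^ 2 - 24 * W.b₄ := rfl
          linear_combination hb₄' + (b + lam ^ 2 * W.b₂) * hq - he₄ - lam ^ 4 * hc
        omega
      refine ⟨27 * lam ^ 6 * W.a₆
        + (-64 * q * (b ^ 2 + b * (lam ^ 2 * W.b₂) + (lam ^ 2 * W.b₂) ^ 2)
          + 9 * b * q₄ + 9 * 256 * q * (lam ^ 4 * W.b₄)) - 64 * e₆, ?_⟩
      have hc : W.c₆ = -W.b₂ ^ 3 + 36 * W.b₂ * W.b₄ - 216 * (W.a₃ ^ 2 + 4 * W.a₆) := rfl
      simp only [a₃]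
      linear_combination
        (-(b ^ 2 + b * (lam ^ 2 * W.b₂) + (lam ^ 2 * W.b₂) ^ 2) + 36 * (lam ^ 4 * W.b₄)) * hq
          + 36 * b * hq₄ - he₆ - lam ^ 6 * hc
    · have h2 : (27 : ℤ) ∣ 2 * (-b ^ 3 + 36 * b * b₄ - S - 216 * a₃ ^ 2) :=
        ⟨-g' + r * (b ^ 2 + b * β + β ^ 2 - 3 * C) - 16 * a₃ ^ 2, by
          linear_combination 3 * b * hb₄' - hg' + (b ^ 2 + b * β + β ^ 2 - 3 * C) * hr⟩
      omega
  obtain ⟨a₆, ha₆⟩ := h864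
  set W' : WeierstrassCurve ℤ := ⟨a₁, a₂, a₃, a₄, a₆⟩ with hW'
  have hc₄ : W'.c₄ = C := by
    simp only [hW', WeierstrassCurve.c₄, WeierstrassCurve.b₂, WeierstrassCurve.b₄]
    linear_combination ha₄
  have hc₆ : W'.c₆ = S := by
    simp only [hW', WeierstrassCurve.c₆, WeierstrassCurve.b₂, WeierstrassCurve.b₄,
      WeierstrassCurve.b₆]
    linear_combination ha₆
  refine ⟨W', hc₄, hc₆, mul_left_cancel₀ (show (1728 : ℤ) ≠ 0 by norm_num) ?_⟩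
  rw [W'.c_relation, hc₄, hc₆, hrel]

/-- A `β` for `exists_model` when `3 ∤ C`. -/
lemma exists_beta {C S D : ℤ} (hrel : C ^ 3 - S ^ 2 = 1728 * D) (hC : ¬ (3 : ℤ) ∣ C) :
    ∃ β : ℤ, (3 : ℤ) ∣ β ^ 2 - C ∧ (27 : ℤ) ∣ 2 * S - β ^ 3 + 3 * β * C := by
  obtain ⟨x, y, hxy⟩ : IsCoprime C 27 := by
    rw [show (27 : ℤ) = 3 ^ 3 by norm_num]
    exact ((Int.prime_three.coprime_iff_not_dvd).2 hC).symm.pow_right
  refine ⟨-x * S, ?_, ?_⟩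
  · refine ⟨9 * (-y * C * (1 + x * C) - x ^ 2 * 64 * D), ?_⟩
    linear_combination (-(x ^ 2)) * hrel + C * (1 + x * C) * hxy
  · refine ⟨S * (3 * y - y * (x * C) ^ 2 - y * (x * C) - y - x ^ 3 * 64 * D), ?_⟩
    linear_combination
      (-(x ^ 3) * S) * hrel + (-3 * S + S * ((x * C) ^ 2 + x * C + 1)) * hxy

section Trace

variable {F : Type*} [Field F]

/-- Scaling does not change the trace. -/
lemma traceOfFrobenius_c46_smul (w a b : F) (hw : w ≠ 0) :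
    (c46Curve (w ^ 4 * a) (w ^ 6 * b)).traceOfFrobenius = (c46Curve a b).traceOfFrobenius := by
  classical
  set V : VariableChange F := ⟨(Units.mk0 w hw)⁻¹, 0, 0, 0⟩
  have e : V • c46Curve a b = c46Curve (w ^ 4 * a) (w ^ 6 * b) := by
    ext <;>
    simp only [V, variableChange_a₁, variableChange_a₂, variableChange_a₃, variableChange_a₄,
      variableChange_a₆, inv_inv, Units.val_mk0, c46Curve] <;>
    ring
  rw [← e]
  simp only [WeierstrassCurve.traceOfFrobenius, WeierstrassCurve.card,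
    Nat.card_congr (Equiv.ofBijective _ (Local.vcHom_bijective (c46Curve a b).toAffine V))]

end Trace

/-- Semistability at the primes dividing the modulus of the congruences. -/
lemma not_dvd_c₄_of_congr {W W' : WeierstrassCurve ℤ} (hW : W.IsSemistableModel) {M lam : ℤ}
    {p : ℕ} (hp : p.Prime) (hp3 : p ≠ 3) (hpM : (p : ℤ) ∣ M) (h2M : (2 : ℤ) ^ 11 ∣ M)
    (hlam : ¬ (p : ℤ) ∣ lam) (h4 : M ∣ W'.c₄ - lam ^ 4 * W.c₄)
    (h6 : M ∣ W'.c₆ - lam ^ 6 * W.c₆) (hΔ : (p : ℤ) ∣ W'.Δ) : ¬ (p : ℤ) ∣ W'.c₄ := by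
  have hp' : Prime (p : ℤ) := Nat.prime_iff_prime_int.1 hp
  have hrel : M ∣ 1728 * (W'.Δ - lam ^ 12 * W.Δ) := by
    have e : 1728 * (W'.Δ - lam ^ 12 * W.Δ) =
        (W'.c₄ - lam ^ 4 * W.c₄) * (W'.c₄ ^ 2 + W'.c₄ * (lam ^ 4 * W.c₄) + (lam ^ 4 * W.c₄) ^ 2)
        - (W'.c₆ - lam ^ 6 * W.c₆) * (W'.c₆ + lam ^ 6 * W.c₆) := by
      linear_combination W'.c_relation - lam ^ 12 * W.c_relation
    rw [e]
    exact dvd_sub (h4.mul_right _) (h6.mul_right _)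
  have hdiff : (p : ℤ) ∣ W'.Δ - lam ^ 12 * W.Δ := by
    rcases eq_or_ne p 2 with rfl | hp2
    · have := h2M.trans hrel
      push_cast
      omega
    · refine (hp'.dvd_or_dvd (hpM.trans hrel)).resolve_left fun h => ?_
      have h2 : ¬ p ∣ 2 := fun h2 => hp2 ((Nat.prime_dvd_prime_iff_eq hp Nat.prime_two).1 h2)
      have h3 : ¬ p ∣ 3 := fun h3 => hp3 ((Nat.prime_dvd_prime_iff_eq hp Nat.prime_three).1 h3)
      have h' : p ∣ 2 ^ 6 * 3 ^ 3 := by exact_mod_cast h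
      rcases (Nat.Prime.dvd_mul hp).1 h' with h' | h'
      · exact h2 (hp.dvd_of_dvd_pow h')
      · exact h3 (hp.dvd_of_dvd_pow h')
  intro hc
  have hΔW : (p : ℤ) ∣ W.Δ := by
    have hd : (p : ℤ) ∣ lam ^ 12 * W.Δ := by simpa using dvd_sub hΔ hdiff
    exact (hp'.dvd_or_dvd hd).resolve_left fun h => hlam (hp'.dvd_of_dvd_pow h)
  have hcW : (p : ℤ) ∣ W.c₄ := by
    have hd : (p : ℤ) ∣ lam ^ 4 * W.c₄ := by simpa using dvd_sub hc (hpM.trans h4)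
    exact (hp'.dvd_or_dvd hd).resolve_left fun h => hlam (hp'.dvd_of_dvd_pow h)
  exact hW p hp hΔW hcW

/-- Congruent traces for twisted models congruent along a family, at almost all primes. -/
lemma almostCongr_of_trace {q : ℕ} {W W' : WeierstrassCurve ℤ} (B : Finset ℕ) {t C S : ℤ}
    (hC : C = t ^ 4 * W'.c₄) (hS : S = t ^ 6 * W'.c₆)
    (h : ∀ (ℓ : ℕ) [Fact ℓ.Prime], ℓ ∉ B → (W'.Δ : ZMod ℓ) ≠ 0 → (W.Δ : ZMod ℓ) ≠ 0 →
      (2 : ZMod ℓ) ≠ 0 ∧ (3 : ZMod ℓ) ≠ 0 ∧ (t : ZMod ℓ) ≠ 0 ∧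
      (q : ℤ) ∣ (c46Curve (C : ZMod ℓ) (S : ZMod ℓ)).traceOfFrobenius
        - (c46Curve (W.c₄ : ZMod ℓ) (W.c₆ : ZMod ℓ)).traceOfFrobenius) :
    AlmostCongr q W W' := by
  refine ⟨B, fun ℓ hℓ hℓB hg hg' => ?_⟩
  have := Fact.mk hℓ
  obtain ⟨h2, h3, ht, hd⟩ := h ℓ hℓB
    (fun e => hg' ((ZMod.intCast_zmod_eq_zero_iff_dvd _ _).1 e))
    (fun e => hg ((ZMod.intCast_zmod_eq_zero_iff_dvd _ _).1 e))
  rw [hC, hS, Int.cast_mul, Int.cast_mul, Int.cast_pow, Int.cast_pow,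
    traceOfFrobenius_c46_smul _ _ _ ht] at hd
  rw [WeierstrassCurve.apOfModel, WeierstrassCurve.apOfModel, WeierstrassCurve.reductionMod,
    WeierstrassCurve.reductionMod, traceOfFrobenius_eq_c46 _ h2 h3,
    traceOfFrobenius_eq_c46 (W.map _) h2 h3]
  simpa only [WeierstrassCurve.map_c₄, WeierstrassCurve.map_c₆, eq_intCast] using hd

end FermatAgent.Switch.Chain
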