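import Fermat.Agent.Switch.Chain.Model

/-!
# Normal coordinates of an ordinary or multiplicative curve modulo powers of 3
-/

set_option autoImplicit false

open WeierstrassCurve

namespace FermatAgent.Switch.Chain

lemma exists_inverse {x M : ℤ} (h : IsCoprime x M) : ∃ y : ℤ, M ∣ x * y - 1 := by
  obtain ⟨u, v, e⟩ := h
  exact ⟨u, -v, by linear_combination e⟩

lemma isCoprime_three_pow {x : ℤ} (h : ¬ (3 : ℤ) ∣ x) (N : ℕ) : IsCoprime x ((3 : ℤ) ^ N) :=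
  ((Int.prime_three.coprime_iff_not_dvd).2 h).symm.pow_right

/-- `c₄ = c²`, `c₆ = c³ (-1 - 864 B)`, `Δ = c⁶ (-B - 432 B²)` modulo `3 ^ N`. -/
theorem exists_normal (W : WeierstrassCurve ℤ) (hc : ¬ (3 : ℤ) ∣ W.c₄) (N : ℕ) :
    ∃ c B : ℤ, ¬ (3 : ℤ) ∣ c ∧ (3 : ℤ) ^ N ∣ W.c₄ - c ^ 2 ∧
      (3 : ℤ) ^ N ∣ W.c₆ - c ^ 3 * (-1 - 864 * B) ∧
      (3 : ℤ) ^ N ∣ W.Δ - c ^ 6 * (-B - 432 * B ^ 2) := by
  have h3 : ∀ z : ZMod 3, z ^ 2 ≠ 0 → z ^ 2 = 1 := by decide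
  have hcz : ((W.c₄ : ℤ) : ZMod 3) = (W.b₂ : ZMod 3) ^ 2 := by
    rw [WeierstrassCurve.c₄]; push_cast; rw [show (24 : ZMod 3) = 0 from rfl]; ring
  have hne : ((W.c₄ : ℤ) : ZMod 3) ≠ 0 := fun e =>
    hc ((ZMod.intCast_zmod_eq_zero_iff_dvd _ _).1 e)
  have ha : (3 : ℤ) ∣ W.c₄ - 1 := by
    refine (ZMod.intCast_zmod_eq_zero_iff_dvd _ 3).1 ?_
    rw [Int.cast_sub, hcz, Int.cast_one, h3 _ (hcz ▸ hne), sub_self]
  obtain ⟨k, hk⟩ := ha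
  have hrel := W.c_relation
  have hb : ¬ (3 : ℤ) ∣ W.c₆ := by
    rintro ⟨x, hx⟩
    refine hc (Int.prime_three.dvd_of_dvd_pow (n := 3) ⟨576 * W.Δ + 3 * x ^ 2, ?_⟩)
    rw [hx] at hrel; linear_combination -hrel
  obtain ⟨σ, hσ, hσb⟩ : ∃ σ : ℤ, (σ = 1 ∨ σ = -1) ∧ (3 : ℤ) ∣ W.c₆ + σ := by
    rcases (by omega : (3 : ℤ) ∣ W.c₆ + 1 ∨ (3 : ℤ) ∣ W.c₆ + (-1)) with h | h
    · exact ⟨1, Or.inl rfl, h⟩
    · exact ⟨-1, Or.inr rfl, h⟩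
  obtain ⟨c, hcσ, hcN⟩ := exists_sqrt_three_pow (a := W.c₄) ⟨k, hk⟩ σ hσ N
  have hc3 : ¬ (3 : ℤ) ∣ c := by omega
  have hbc : ¬ (3 : ℤ) ∣ W.c₆ - c ^ 3 := by
    intro h
    have h' : (3 : ℤ) ∣ c ^ 3 - c := by
      obtain ⟨r, hr⟩ := hcσ
      rcases hσ with rfl | rfl
      · exact ⟨9 * r ^ 3 + 9 * r ^ 2 + 2 * r, by rw [show c = 1 + 3 * r by omega]; ring⟩
      · exact ⟨9 * r ^ 3 - 9 * r ^ 2 + 2 * r, by rw [show c = -1 + 3 * r by omega]; ring⟩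
    omega
  obtain ⟨v, hv⟩ := exists_inverse (isCoprime_three_pow hc3 N)
  obtain ⟨w, hw⟩ := exists_inverse (isCoprime_three_pow hbc N)
  have hA : (3 : ℤ) ^ N ∣ c ^ 2 - W.c₄ := (pow_dvd_pow 3 N.le_succ).trans hcN
  have hcast : (((3 ^ N : ℕ) : ℤ)) = 3 ^ N := by push_cast; ring
  rw [← hcast, ← ZMod.intCast_zmod_eq_zero_iff_dvd] at hv hw hA
  push_cast at hv hw hA
  have hrelR := congrArg (Int.cast : ℤ → ZMod (3 ^ N)) hrel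
  push_cast at hrelR
  refine ⟨c, 2 * W.Δ * w * v ^ 3, hc3, dvd_sub_comm.1 ((pow_dvd_pow 3 N.le_succ).trans hcN), ?_, ?_⟩
  all_goals rw [← hcast, ← ZMod.intCast_zmod_eq_zero_iff_dvd]; push_cast
  all_goals
    generalize (c : ZMod (3 ^ N)) = x at *
    generalize (v : ZMod (3 ^ N)) = v' at *
    generalize (w : ZMod (3 ^ N)) = w' at *
    generalize ((W.Δ : ℤ) : ZMod (3 ^ N)) = D at *
    generalize ((W.c₄ : ℤ) : ZMod (3 ^ N)) = a at *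
    generalize ((W.c₆ : ℤ) : ZMod (3 ^ N)) = b at *
    rw [sub_eq_zero] at hA hv hw
    have hv3 : x ^ 3 * v' ^ 3 = 1 := by rw [← mul_pow, hv, one_pow]
    subst hA
  · linear_combination (-(b + x ^ 3)) * hw + w' * hrelR + (1728 * D * w') * hv3
  · linear_combination
      (-D * (1 + w' * (b + x ^ 3))) * hw + (w' ^ 2 * D) * hrelR
        + (2 * D * w' * x ^ 3 + 1728 * D ^ 2 * w' ^ 2 * (x ^ 3 * v' ^ 3 + 1)) * hv3

end FermatAgent.Switch.Chain
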